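import Fermat.Agent.LocalRingP.Tangent
import Fermat.Agent.DefRing.MatrixRep
import Fermat.Prelude.Def_GaloisRep_Residual

/-!
# The ordinary and strict local conditions at `p`

The spaces of trace zero cocycles on a decomposition group at `p` satisfying the first order
ordinary (resp. strict) equations contain the coboundaries and have dimension at most `4`.
-/

set_option autoImplicit false

noncomputable section

namespace Fermat.Agent.LocalRingP

open Fermat.Agent.DefRing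

local notation "Ω" => AlgebraicClosure ℚ
local notation "G_ℚ" => (AlgebraicClosure ℚ) ≃ₐ[ℚ] (AlgebraicClosure ℚ)

variable {k : Type} [Field k]

/-- Diagonalisation of a matrix with two given distinct eigenvalues. -/
lemma exists_diag_basis {M : Matrix (Fin 2) (Fin 2) k} {w : k} (hw0 : w ≠ 0) (hw : w ≠ 1) (hdet : M.det = w)
    (hM : (M - w • 1) * (M - 1) = 0) :
    ∃ P Q : Matrix (Fin 2) (Fin 2) k, P * Q = 1 ∧ Q * P = 1 ∧ Q * M * P = !![w, 0; 0, 1] := by
  have hM' : (M - 1) * (M - w • 1) = 0 := by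
    rw [← hM]
    simp only [Matrix.sub_mul, Matrix.mul_sub, Matrix.smul_mul, Matrix.mul_smul, one_mul, mul_one]
    module
  have h1 : M - 1 ≠ 0 := fun h => by
    rw [sub_eq_zero.mp h, Matrix.det_one] at hdet
    exact hw hdet.symm
  have h2 : M - w • 1 ≠ 0 := fun h => by
    rw [sub_eq_zero.mp h, Matrix.det_smul, Matrix.det_one, mul_one, Fintype.card_fin, sq] at hdet
    exact hw (mul_left_cancel₀ hw0 (hdet.trans (mul_one w).symm))
  obtain ⟨j, hj⟩ : ∃ j, (fun i => (M - 1) i j) ≠ 0 := by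
    by_contra hc
    push Not at hc
    exact h1 (Matrix.ext fun i j => congrFun (hc j) i)
  obtain ⟨l, hl⟩ : ∃ l, (fun i => (M - w • 1) i l) ≠ 0 := by
    by_contra hc
    push Not at hc
    exact h2 (Matrix.ext fun i j => congrFun (hc j) i)
  let P : Matrix (Fin 2) (Fin 2) k := !![(M - 1) 0 j, (M - w • 1) 0 l; (M - 1) 1 j, (M - w • 1) 1 l]
  have hMP : M * P = P * !![w, 0; 0, 1] := by
    have e1 := fun i => congrFun (congrFun hM i) j
    have e2 := fun i => congrFun (congrFun hM' i) l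
    simp [Matrix.mul_apply, Fin.sum_univ_two, Fin.forall_fin_two] at e1 e2
    ext i i'
    fin_cases i <;> fin_cases i' <;> simp [P, Matrix.mul_apply, Fin.sum_univ_two]
    · linear_combination e1.1
    · linear_combination e2.1
    · linear_combination e1.2
    · linear_combination e2.2
  have hdetP : P.det ≠ 0 := by
    intro h0
    obtain ⟨x, hx0, hx⟩ := Matrix.exists_mulVec_eq_zero_iff.mpr h0
    have hx' : P.mulVec (!![w, 0; 0, 1].mulVec x) = 0 := by
      rw [Matrix.mulVec_mulVec, ← hMP, ← Matrix.mulVec_mulVec, hx, Matrix.mulVec_zero]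
    have a0 := congrFun hx 0
    have a1 := congrFun hx 1
    have b0 := congrFun hx' 0
    have b1 := congrFun hx' 1
    simp [P, Matrix.mulVec, dotProduct, Fin.sum_univ_two, -Matrix.sub_apply] at a0 a1 b0 b1
    have hw' : w - 1 ≠ 0 := sub_ne_zero.mpr hw
    have hx00 : x 0 = 0 := by
      by_contra hne
      apply hj
      funext i
      fin_cases i
      · exact (mul_eq_zero.mp (show (w - 1) * x 0 * (M - 1) 0 j = 0 by
          linear_combination b0 - a0)).resolve_left (mul_ne_zero hw' hne)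
      · exact (mul_eq_zero.mp (show (w - 1) * x 0 * (M - 1) 1 j = 0 by
          linear_combination b1 - a1)).resolve_left (mul_ne_zero hw' hne)
    have hx10 : x 1 ≠ 0 := fun e => hx0 (by
      funext i
      fin_cases i
      exacts [hx00, e])
    apply hl
    funext i
    rw [hx00, mul_zero, zero_add] at a0 a1
    fin_cases i
    · exact (mul_eq_zero.mp a0).resolve_right hx10
    · exact (mul_eq_zero.mp a1).resolve_right hx10
  have hu : IsUnit P.det := isUnit_iff_ne_zero.mpr hdetP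
  exact ⟨P, P⁻¹, Matrix.mul_nonsing_inv P hu, Matrix.nonsing_inv_mul P hu, by
    rw [mul_assoc, hMP, Matrix.nonsing_inv_mul_cancel_left P _ hu]⟩

variable {A : ValuationSubring Ω} {p : ℕ} [Fact p.Prime]

/-- Some element of inertia moves a primitive `p`-th root of unity. -/
lemma exists_inertia_moves (hp3 : 3 ≤ p) (hA : A.LiesOverPrime p) {ζ : Ω}
    (hζ : IsPrimitiveRoot ζ p) : ∃ σ ∈ A.inertiaSubgroupIn ℚ, σ ζ ≠ ζ := by
  have hp : p.Prime := Fact.out
  by_contra hc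
  push Not at hc
  have hne : (1 : Ω) - ζ ≠ 0 := sub_ne_zero.mpr (hζ.ne_one hp.one_lt).symm
  obtain ⟨j, hj⟩ := FlatJ0.exists_valuation_eq_zpow_of_fixed hp hA hne fun σ hσ => by
    rw [map_sub, map_one, hc σ hσ]
  have hpos : 0 < A.valuation (p : Ω) := MultRed.vq_pos hp
  have hlt : A.valuation (p : Ω) < 1 := MultRed.vq_lt_one hA
  -- `|p|` is not below `|1 - ζ|`
  have h1 := lt_valuation_one_sub hp hp3 hA hζ (x := (p : Ω))
    (pow_le_pow_of_le_one zero_le hlt.le (by omega))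
  rw [hj] at h1
  have hj0 : j < 1 := by
    by_contra hj'
    exact h1.not_ge ((zpow_le_zpow_right_of_le_one₀ hpos hlt.le (not_lt.mp hj')).trans_eq
      (zpow_one _))
  have h2 : A.valuation (1 - ζ) < 1 := by
    have := Frobenius.residueField_charP hp hA
    have hζA : ζ ∈ A := (A.valuation_le_one_iff ζ).mp
      ((pow_le_one_iff hp.ne_zero).mp (by rw [← map_pow, hζ.pow_eq_one, map_one]))
    have hr : IsLocalRing.residue A ⟨ζ, hζA⟩ = 1 := by
      refine frobenius_inj (IsLocalRing.ResidueField A) p ?_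
      rw [frobenius_def, map_one, ← map_pow,
        show (⟨ζ, hζA⟩ : A) ^ p = 1 from Subtype.ext hζ.pow_eq_one, map_one]
    rw [← map_one (IsLocalRing.residue A), eq_comm, ← sub_eq_zero, ← map_sub,
      IsLocalRing.residue_eq_zero_iff, ← ValuationSubring.coe_mem_nonunits_iff,
      A.mem_nonunits_iff] at hr
    exact hr
  rw [hj] at h2
  exact h2.not_ge (one_le_zpow_of_nonpos₀ hpos hlt.le (by omega))

/-- The bound for a representation with the residual equation on inertia. -/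
theorem finrank_condSpace_le_four [CharP k p] (hp3 : 3 ≤ p) (ρ : MRep k)
    (hfin : GaloisFactorsThroughFiniteLevel (ρ : GQ →* _))
    (χ : GQ → k) (hχ : ∀ σ (a : ℕ), (∀ μ : Ω, μ ^ p = 1 → σ μ = μ ^ a) → χ σ = a)
    (hdet : ∀ σ, (ρ σ).det = χ σ) (hA : A.LiesOverPrime p)
    (hord : ∀ σ ∈ A.inertiaSubgroupIn ℚ, ∀ τ ∈ A.inertiaSubgroupIn ℚ,
      (ρ σ - χ σ • 1) * (ρ τ - 1) = 0)
    (S : Set (A.decompositionSubgroup ℚ))
    (hI : ∀ g : A.decompositionSubgroup ℚ, (g : G_ℚ) ∈ A.inertiaSubgroupIn ℚ → g ∈ S)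
    (γ χ' : A.decompositionSubgroup ℚ → k)
    (hγ : ∀ g : A.decompositionSubgroup ℚ, (g : G_ℚ) ∈ A.inertiaSubgroupIn ℚ →
      γ g = 1 ∧ χ' g = χ g)
    (hor : S = Set.univ ∨
      ∃ σ ∈ A.decompositionSubgroup ℚ, χ σ = 1 ∧ (ρ σ).trace ^ 2 ≠ 4) :
    FiniteDimensional k (condSpace (ρ.comp (A.decompositionSubgroup ℚ).subtype) S γ χ') ∧
      Module.finrank k (condSpace (ρ.comp (A.decompositionSubgroup ℚ).subtype) S γ χ') ≤ 4 := by
  classical
  have hp : p.Prime := Fact.out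
  have : NeZero p := ⟨hp.ne_zero⟩
  let _ : Algebra (ZMod p) k := ZMod.algebra k p
  have : NeZero ((p : ℕ) : Ω) := ⟨Nat.cast_ne_zero.mpr hp.ne_zero⟩
  obtain ⟨ζ, hζ⟩ := HasEnoughRootsOfUnity.exists_primitiveRoot (AlgebraicClosure ℚ) p
  let ω : A.decompositionSubgroup ℚ →* ZMod p :=
    (Units.coeHom (ZMod p)).comp ((hζ.autToPow ℚ).comp (A.decompositionSubgroup ℚ).subtype)
  have hω : ∀ g : A.decompositionSubgroup ℚ, (g : G_ℚ) ζ = ζ ^ (ω g).val := fun g =>
    (hζ.autToPow_spec ℚ (g : G_ℚ)).symm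
  have hχω : ∀ g : A.decompositionSubgroup ℚ, χ g = algebraMap (ZMod p) k (ω g) := fun g => by
    rw [hχ (g : G_ℚ) (ω g).val fun μ hμ => ?_, ← map_natCast (algebraMap (ZMod p) k),
      ZMod.natCast_rightInverse (ω g)]
    obtain ⟨i, -, rfl⟩ := hζ.eq_pow_of_pow_eq_one hμ
    rw [map_pow, hω, ← pow_mul, ← pow_mul, mul_comm]
  obtain ⟨s, hs, hsζ⟩ := exists_inertia_moves hp3 hA hζ
  let σ₀ : A.decompositionSubgroup ℚ := ⟨s, MultRed.inertia_mem_decomposition hs⟩
  have hωσ₀ : ω σ₀ ≠ 1 := fun e => hsζ (by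
    have := hω σ₀
    rwa [e, ZMod.val_one, pow_one] at this)
  set w := algebraMap (ZMod p) k (ω σ₀) with hw
  have hw1 : w ≠ 1 := fun e =>
    hωσ₀ ((algebraMap (ZMod p) k).injective (e.trans (map_one _).symm))
  obtain ⟨P, Q, hPQ, hQP, hdiag⟩ := exists_diag_basis (fun e => by
      have h0 := hω σ₀
      rw [(algebraMap (ZMod p) k).injective (e.trans (map_zero _).symm), ZMod.val_zero, pow_zero] at h0
      exact hζ.ne_one hp.one_lt ((AlgEquiv.injective (σ₀ : G_ℚ)) (h0.trans (map_one _).symm))) hw1 ((hdet s).trans (hχω σ₀))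
    (by rw [hw, ← hχω σ₀]; exact hord s hs s hs)
  let r : A.decompositionSubgroup ℚ →* Matrix (Fin 2) (Fin 2) k :=
    { toFun := fun g => Q * ρ g * P
      map_one' := by rw [Subgroup.coe_one, map_one, mul_one, hQP]
      map_mul' := fun a b => by
        rw [Subgroup.coe_mul, map_mul, show Q * ρ a * P * (Q * ρ b * P) =
          Q * (ρ a * ((P * Q) * ρ b)) * P by noncomm_ring, hPQ, one_mul] }
  have hrE : ∀ g, r g = Q * ρ g * P := fun g => rfl
  have hrdet : ∀ g, (r g).det = algebraMap (ZMod p) k (ω g) := fun g => by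
    have h1 : Q.det * P.det = 1 := by rw [← Matrix.det_mul, hQP, Matrix.det_one]
    rw [hrE, Matrix.det_mul, Matrix.det_mul, hdet, hχω]
    linear_combination algebraMap (ZMod p) k (ω g) * h1
  have hσ₀ : r σ₀ = !![w, 0; 0, 1] := hdiag
  have hlow : ∀ τ : A.decompositionSubgroup ℚ, (τ : G_ℚ) ∈ A.inertiaSubgroupIn ℚ →
      r τ 1 0 = 0 ∧ r τ 1 1 = 1 := by
    intro τ hτ
    have h1 : (r σ₀ - w • 1) * (r τ - 1) = 0 := by
      have h0 : Q * ((ρ s - χ s • 1) * (ρ τ - 1)) * P = 0 := by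
        rw [hord s hs τ hτ, mul_zero, zero_mul]
      rw [hrE, hrE, ← h0, show χ s = w from hχω σ₀]
      have e : ∀ M : Matrix (Fin 2) (Fin 2) k, M * P * (Q * (ρ τ - 1) * P) = M * (ρ τ - 1) * P :=
        fun M => by
          rw [show M * P * (Q * (ρ τ - 1) * P) = M * ((P * Q) * (ρ τ - 1)) * P by noncomm_ring,
            hPQ, one_mul]
      rw [show Q * ρ (σ₀ : G_ℚ) * P - w • (1 : Matrix (Fin 2) (Fin 2) k) =
          Q * (ρ s - w • 1) * P by
        rw [Matrix.mul_sub, Matrix.sub_mul, Matrix.mul_smul, mul_one, Matrix.smul_mul, hQP]]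
      rw [show Q * ρ (τ : G_ℚ) * P - 1 = Q * (ρ τ - 1) * P by
        rw [Matrix.mul_sub, Matrix.sub_mul, mul_one, hQP], e, mul_assoc Q]
    rw [hσ₀] at h1
    have hne : (1 : k) - w ≠ 0 := sub_ne_zero.mpr (Ne.symm hw1)
    constructor
    · simpa [Matrix.mul_apply, Fin.sum_univ_two, hne] using congrFun (congrFun h1 1) 0
    · simpa [Matrix.mul_apply, Fin.sum_univ_two, hne, sub_eq_zero] using
        congrFun (congrFun h1 1) 1
  have htri : ∀ g, r g 1 0 = 0 := by
    intro g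
    have hτ := conj_mem_inertiaSubgroupIn (g := g) (σ := σ₀) hs
    have e : r (g * σ₀ * g⁻¹) * r g = r g * r σ₀ := by
      rw [← map_mul, ← map_mul, inv_mul_cancel_right]
    rw [hσ₀] at e
    have e1 := congrFun (congrFun e 1) 0
    obtain ⟨h10, h11⟩ := hlow _ hτ
    simp [Matrix.mul_apply, Fin.sum_univ_two, h10, h11, -map_mul] at e1
    by_contra hne
    exact hw1 (mul_left_cancel₀ hne (e1.symm.trans (mul_one _).symm))
  have hlev : FiniteLevel A 1 r := by
    obtain ⟨L, hL, hρL⟩ := hfin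
    exact ⟨L, hL, fun g hg => by rw [hrE, hρL g hg, mul_one, hQP]⟩
  have h : Adapted r ω σ₀ :=
    { mem := hs
      ne := hωσ₀
      diag := hσ₀
      tri := htri
      unit := fun g hg => (hlow g hg).2
      det := fun g => by rw [← hrdet, Matrix.det_fin_two, htri, mul_zero, sub_zero]
      level := hlev }
  obtain ⟨φ₀, hφ₀⟩ := Frobenius.exists_isFrobeniusAt_qbar hp hA
  let φ : A.decompositionSubgroup ℚ := ⟨φ₀, hφ₀.mem_decompositionSubgroup⟩
  obtain ⟨hfd, -, h4⟩ := finrank_condSpace_le (φ := φ) (γ := γ) (χ' := χ') (S := S) hp3 hA hζ hω h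
    hφ₀ (hI σ₀ hs) hI (hγ σ₀ hs).1 ((hγ σ₀ hs).2.trans (hχω σ₀))
  have hor' : h.twist φ ≠ 1 ∨ S = Set.univ := by
    refine hor.symm.imp_left ?_
    rintro ⟨σ, hσ, hχσ, htr⟩ ht1
    apply htr
    obtain ⟨n, hn⟩ := exists_eq_pow_of_trivial_on_inertia hp hA φ hφ₀ h.twist h.twist_level
      h.twist_inertia ⟨σ, hσ⟩
    rw [ht1, one_pow] at hn
    have h1 : r (⟨σ, hσ⟩ : A.decompositionSubgroup ℚ) 1 1 ^ 2 = 1 := by
      have h2 := h.inv11 ⟨σ, hσ⟩
      change r (⟨σ, hσ⟩ : A.decompositionSubgroup ℚ)⁻¹ 1 1 ^ 2 = 1 at hn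
      have h3 := congrArg (fun x : k => x ^ 2) h2
      simp only [mul_pow, hn, mul_one, one_pow] at h3
      exact h3
    have hd := h.det ⟨σ, hσ⟩
    rw [← hχω, show χ ((⟨σ, hσ⟩ : A.decompositionSubgroup ℚ) : G_ℚ) = 1 from hχσ] at hd
    have htrr : (ρ σ).trace = (r ⟨σ, hσ⟩).trace := by
      rw [hrE, Matrix.trace_mul_cycle, hPQ, one_mul]
    rw [htrr, Matrix.trace_fin_two]
    set a := r (⟨σ, hσ⟩ : A.decompositionSubgroup ℚ) 0 0
    set e := r (⟨σ, hσ⟩ : A.decompositionSubgroup ℚ) 1 1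
    linear_combination (a * e + 3) * hd + (1 - a ^ 2) * h1
  -- transport the space to the adapted basis
  set ρD := ρ.comp (A.decompositionSubgroup ℚ).subtype
  let conjQ : (A.decompositionSubgroup ℚ → Matrix (Fin 2) (Fin 2) k) →ₗ[k]
      (A.decompositionSubgroup ℚ → Matrix (Fin 2) (Fin 2) k) :=
    { toFun := fun c g => Q * c g * P
      map_add' := fun a b => by funext g; simp [Matrix.mul_add, Matrix.add_mul]
      map_smul' := fun t a => by funext g; simp }
  have hmaps : ∀ c ∈ condSpace ρD S γ χ', conjQ c ∈ condSpace r S γ χ' := by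
    rintro c ⟨hmul, htr, ⟨L, hL, hcL⟩, heq⟩
    refine ⟨fun a b => ?_, fun g => ?_, ⟨L, hL, fun g hg => ?_⟩, fun σ hσ τ hτ => ?_⟩
    · show Q * c (a * b) * P = Q * c a * P + r a * (Q * c b * P) * r a⁻¹
      rw [hmul, hrE, hrE, show Q * ρ (a : G_ℚ) * P * (Q * c b * P) *
          (Q * ρ ((a⁻¹ : A.decompositionSubgroup ℚ) : G_ℚ) * P) =
        Q * (ρ a * (P * Q) * c b * (P * Q) * ρ ((a⁻¹ : A.decompositionSubgroup ℚ) : G_ℚ)) * P by
          noncomm_ring, hPQ, mul_one, mul_one, Matrix.mul_add, Matrix.add_mul]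
      rfl
    · show (Q * c g * P).trace = 0
      rw [Matrix.trace_mul_cycle, hPQ, one_mul, htr]
    · show Q * c g * P = 0
      rw [hcL g hg, mul_zero, zero_mul]
    · have e : condEq r γ χ' (conjQ c) σ τ = Q * condEq ρD γ χ' c σ τ * P := by
        have e1 : ∀ (g : A.decompositionSubgroup ℚ) (x : k),
            r g - x • (1 : Matrix (Fin 2) (Fin 2) k) = Q * (ρD g - x • 1) * P := fun g x => by
          rw [hrE, Matrix.mul_sub, Matrix.sub_mul, Matrix.mul_smul, mul_one, Matrix.smul_mul, hQP]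
          rfl
        have e2 : ∀ g, Q * c g * P * r g = Q * (c g * ρD g) * P := fun g => by
          rw [hrE, show Q * c g * P * (Q * ρ (g : G_ℚ) * P) =
            Q * (c g * (P * Q) * ρ g) * P by noncomm_ring, hPQ, mul_one]
          rfl
        have e3 : ∀ X Y : Matrix (Fin 2) (Fin 2) k, Q * X * P * (Q * Y * P) = Q * (X * Y) * P :=
          fun X Y => by
            rw [show Q * X * P * (Q * Y * P) = Q * (X * (P * Q) * Y) * P by noncomm_ring, hPQ,
              mul_one]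
        show Q * c σ * P * r σ * (r τ - γ τ • 1) + (r σ - χ' σ • 1) * (Q * c τ * P * r τ) = _
        rw [e1, e1, e2, e2, e3, e3, condEq, Matrix.mul_add, Matrix.add_mul]
      rw [e, heq σ hσ τ hτ, mul_zero, zero_mul]
  have hinj : Function.Injective (conjQ.restrict hmaps) := by
    intro c c' hcc
    refine Subtype.ext (funext fun g => ?_)
    have h1 : Q * (c : A.decompositionSubgroup ℚ → _) g * P =
        Q * (c' : A.decompositionSubgroup ℚ → _) g * P :=
      congrFun (congrArg Subtype.val hcc) g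
    have h2 := congrArg (fun X => P * X * Q) h1
    simpa only [← mul_assoc, hPQ, one_mul, mul_assoc _ P Q, mul_one] using h2
  have : FiniteDimensional k (condSpace r S γ χ') := hfd
  exact ⟨Module.Finite.of_injective _ hinj,
    (LinearMap.finrank_le_finrank_of_injective hinj).trans (h4 hor')⟩

/-- **The ordinary condition at `p`.** -/
theorem exists_ordinary_condition (p : ℕ) [Fact p.Prime] (hp : 5 ≤ p) [CharP k p] (ρ : MRep k)
    (hfin : GaloisFactorsThroughFiniteLevel (ρ : GQ →* _))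
    (χ : GQ → k) (hχ : ∀ σ (a : ℕ), (∀ μ : Ω, μ ^ p = 1 → σ μ = μ ^ a) → χ σ = a)
    (hdet : ∀ σ, (ρ σ).det = χ σ)
    (A : ValuationSubring Ω) (hA : A.LiesOverPrime p)
    (hord : ∀ σ ∈ A.inertiaSubgroupIn ℚ, ∀ τ ∈ A.inertiaSubgroupIn ℚ,
      (ρ σ - χ σ • 1) * (ρ τ - 1) = 0)
    (hdist : ∃ σ ∈ A.decompositionSubgroup ℚ, χ σ = 1 ∧ (ρ σ).trace ^ 2 ≠ 4) :
    ∃ L : Submodule k (A.decompositionSubgroup ℚ → Matrix (Fin 2) (Fin 2) k),
      (∀ c ∈ L, (∀ g h : A.decompositionSubgroup ℚ,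
        c (g * h) = c g + ρ (g : GQ) * c h * ρ (g : GQ)⁻¹) ∧ ∀ g, (c g).trace = 0) ∧
      (∀ X : Matrix (Fin 2) (Fin 2) k, X.trace = 0 →
        (fun g : A.decompositionSubgroup ℚ => ρ (g : GQ) * X * ρ (g : GQ)⁻¹ - X) ∈ L) ∧
      (FiniteDimensional k L ∧ Module.finrank k L ≤ 4) ∧
      ∀ c : GQ → Matrix (Fin 2) (Fin 2) k,
        (∀ g h, c (g * h) = c g + ρ g * c h * ρ g⁻¹) → (∀ g, (c g).trace = 0) →
        (∃ F : IntermediateField ℚ Ω, FiniteDimensional ℚ F ∧
          ∀ σ : GQ, (∀ a ∈ F, σ a = a) → c σ = 0) →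
        (∀ σ ∈ A.inertiaSubgroupIn ℚ, ∀ τ ∈ A.inertiaSubgroupIn ℚ,
          c σ * ρ σ * (ρ τ - 1) + (ρ σ - χ σ • 1) * (c τ * ρ τ) = 0) →
        (fun g : A.decompositionSubgroup ℚ => c g) ∈ L := by
  refine ⟨condSpace (ρ.comp (A.decompositionSubgroup ℚ).subtype)
    {g | (g : GQ) ∈ A.inertiaSubgroupIn ℚ} (fun _ => 1) (fun g => χ g), ?_, ?_, ?_, ?_⟩
  · exact fun c hc => ⟨hc.1, hc.2.1⟩
  · refine fun X _ => coboundary_mem_condSpace
      (hfin.imp fun L h => ⟨h.1, fun g hg => h.2 g hg⟩) (fun σ hσ τ hτ => ?_) X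
    show (ρ σ - χ σ • 1) * (ρ τ - (1 : k) • 1) = 0
    rw [one_smul]
    exact hord σ hσ τ hτ
  · exact finrank_condSpace_le_four (by omega) ρ hfin χ hχ hdet hA hord _ (fun _ hg => hg) _ _
      (fun _ _ => ⟨rfl, rfl⟩) (Or.inr hdist)
  · intro c h1 h2 h3 h4
    refine ⟨fun g h => h1 g h, fun g => h2 g,
      h3.imp fun F hF => ⟨hF.1, fun g hg => hF.2 g hg⟩, fun σ hσ τ hτ => ?_⟩
    show c σ * ρ σ * (ρ τ - (1 : k) • 1) + (ρ σ - χ σ • 1) * (c τ * ρ τ) = 0
    rw [one_smul]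
    exact h4 σ hσ τ hτ

/-- **The strict condition at `p`.** -/
theorem exists_strict_condition (p : ℕ) [Fact p.Prime] (hp : 5 ≤ p) [CharP k p] (ρ : MRep k)
    (hfin : GaloisFactorsThroughFiniteLevel (ρ : GQ →* _))
    (χ γ : GQ → k) (hχ : ∀ σ (a : ℕ), (∀ μ : Ω, μ ^ p = 1 → σ μ = μ ^ a) → χ σ = a)
    (hdet : ∀ σ, (ρ σ).det = χ σ)
    (A : ValuationSubring Ω) (hA : A.LiesOverPrime p)
    (hγ1 : ∀ σ ∈ A.inertiaSubgroupIn ℚ, γ σ = 1)
    (hord : ∀ σ ∈ A.decompositionSubgroup ℚ, ∀ τ ∈ A.decompositionSubgroup ℚ,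
      (ρ σ - (γ σ * χ σ) • 1) * (ρ τ - γ τ • 1) = 0) :
    ∃ L : Submodule k (A.decompositionSubgroup ℚ → Matrix (Fin 2) (Fin 2) k),
      (∀ c ∈ L, (∀ g h : A.decompositionSubgroup ℚ,
        c (g * h) = c g + ρ (g : GQ) * c h * ρ (g : GQ)⁻¹) ∧ ∀ g, (c g).trace = 0) ∧
      (∀ X : Matrix (Fin 2) (Fin 2) k, X.trace = 0 →
        (fun g : A.decompositionSubgroup ℚ => ρ (g : GQ) * X * ρ (g : GQ)⁻¹ - X) ∈ L) ∧
      (FiniteDimensional k L ∧ Module.finrank k L ≤ 4) ∧
      ∀ c : GQ → Matrix (Fin 2) (Fin 2) k,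
        (∀ g h, c (g * h) = c g + ρ g * c h * ρ g⁻¹) → (∀ g, (c g).trace = 0) →
        (∃ F : IntermediateField ℚ Ω, FiniteDimensional ℚ F ∧
          ∀ σ : GQ, (∀ a ∈ F, σ a = a) → c σ = 0) →
        (∀ σ ∈ A.decompositionSubgroup ℚ, ∀ τ ∈ A.decompositionSubgroup ℚ,
          c σ * ρ σ * (ρ τ - γ τ • 1) + (ρ σ - (γ σ * χ σ) • 1) * (c τ * ρ τ) = 0) →
        (fun g : A.decompositionSubgroup ℚ => c g) ∈ L := by
  refine ⟨condSpace (ρ.comp (A.decompositionSubgroup ℚ).subtype) Set.univ (fun g => γ g)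
    (fun g => γ g * χ g), ?_, ?_, ?_, ?_⟩
  · exact fun c hc => ⟨hc.1, hc.2.1⟩
  · exact fun X _ => coboundary_mem_condSpace
      (hfin.imp fun L h => ⟨h.1, fun g hg => h.2 g hg⟩) (fun σ _ τ _ => hord σ σ.2 τ τ.2) X
  · refine finrank_condSpace_le_four (by omega) ρ hfin χ hχ hdet hA (fun σ hσ τ hτ => ?_) _
      (fun _ _ => Set.mem_univ _) _ _
      (fun g hg => ⟨hγ1 g hg, by rw [hγ1 g hg, one_mul]⟩) (Or.inl rfl)
    have := hord σ (MultRed.inertia_mem_decomposition hσ) τ (MultRed.inertia_mem_decomposition hτ)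
    rwa [hγ1 σ hσ, hγ1 τ hτ, one_mul, one_smul] at this
  · intro c h1 h2 h3 h4
    exact ⟨fun g h => h1 g h, fun g => h2 g,
      h3.imp fun F hF => ⟨hF.1, fun g hg => hF.2 g hg⟩, fun σ _ τ _ => h4 σ σ.2 τ τ.2⟩

end Fermat.Agent.LocalRingP
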