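import Fermat.Agent.Frobenius.Exists
import Fermat.Agent.FreyReducible.InertiaLift
import Fermat.Agent.MultRed.Galois
import Mathlib.FieldTheory.Finite.GaloisField

/-!
# The decomposition group is generated by Frobenius and inertia

On every finite level, an element of the decomposition group at a place over `p` is a power of a
Frobenius element times an element of inertia.
-/

set_option autoImplicit false

open NumberField
open scoped Pointwise NumberField

noncomputable section

namespace Fermat.Agent.LocalRingP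

local notation "Ω" => AlgebraicClosure ℚ
local notation "G_ℚ" => (AlgebraicClosure ℚ) ≃ₐ[ℚ] (AlgebraicClosure ℚ)

local instance isAlgebraicQbar_lrp : Algebra.IsAlgebraic ℚ (AlgebraicClosure ℚ) :=
  AlgebraicClosure.isAlgebraic ℚ
local instance isGaloisQbar_lrp : IsGalois ℚ (AlgebraicClosure ℚ) :=
  have : IsAlgClosure ℚ (AlgebraicClosure ℚ) := ⟨inferInstance, inferInstance⟩
  IsAlgClosure.isGalois ℚ (AlgebraicClosure ℚ)

variable {A : ValuationSubring Ω} {p : ℕ}

/-- A function on the decomposition group which takes the value `x₀` near the identity. -/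
def FiniteLevel (A : ValuationSubring Ω) {X : Type*} (x₀ : X)
    (f : A.decompositionSubgroup ℚ → X) : Prop :=
  ∃ L : IntermediateField ℚ Ω, FiniteDimensional ℚ L ∧
    ∀ g : A.decompositionSubgroup ℚ, (∀ a ∈ L, (g : G_ℚ) a = a) → f g = x₀

/-- Frobenius raises integral elements to the `p`-th power modulo nonunits. -/
lemma frobenius_sub_pow {φ : G_ℚ} (hφ : A.IsFrobeniusAt φ p) {x : Ω} (hx : x ∈ A) :
    φ x - x ^ p ∈ A.nonunits := by
  have h := hφ.smul_residue_eq (IsLocalRing.residue A ⟨x, hx⟩)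
  rw [← IsLocalRing.ResidueField.residue_smul, ← map_pow, ← sub_eq_zero, ← map_sub,
    IsLocalRing.residue_eq_zero_iff, ← ValuationSubring.coe_mem_nonunits_iff] at h
  exact h

lemma frobenius_pow_sub_pow {φ : G_ℚ} (hφ : A.IsFrobeniusAt φ p) {x : Ω} (hx : x ∈ A) (n : ℕ) :
    (φ ^ n) x - x ^ p ^ n ∈ A.nonunits := by
  induction n with
  | zero =>
    rw [pow_zero, pow_zero, pow_one, AlgEquiv.one_apply, sub_self, A.mem_nonunits_iff, map_zero]
    exact zero_lt_one
  | succ n ih =>
    have h1 : φ ((φ ^ n) x - x ^ p ^ n) ∈ A.nonunits := by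
      rw [A.mem_nonunits_iff, MultRed.decomp_isometry hφ.mem_decompositionSubgroup,
        ← A.mem_nonunits_iff]
      exact ih
    have h2 : φ (x ^ p ^ n) - (x ^ p ^ n) ^ p ∈ A.nonunits := frobenius_sub_pow hφ (pow_mem hx _)
    rw [A.mem_nonunits_iff] at h1 h2 ⊢
    have e : (φ ^ (n + 1)) x - x ^ p ^ (n + 1) =
        φ ((φ ^ n) x - x ^ p ^ n) + (φ (x ^ p ^ n) - (x ^ p ^ n) ^ p) := by
      rw [pow_succ' φ, AlgEquiv.mul_apply, map_sub, pow_succ, pow_mul]
      ring
    rw [e]
    exact A.valuation.map_add_lt h1 h2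

/-- On a finite Galois level, every element of the decomposition group is a power of Frobenius
times an element of inertia. -/
theorem exists_pow_mul_inertia_eqOn (hp : p.Prime) (hA : A.LiesOverPrime p) {φ : G_ℚ}
    (hφ : A.IsFrobeniusAt φ p) {g : G_ℚ} (hg : g ∈ A.decompositionSubgroup ℚ)
    (F : IntermediateField ℚ Ω) [FiniteDimensional ℚ F] [IsGalois ℚ F] :
    ∃ n : ℕ, ∃ τ ∈ A.inertiaSubgroupIn ℚ, ∀ x ∈ F, g x = (φ ^ n * τ) x := by
  have : NumberField F := { to_charZero := inferInstance, to_finiteDimensional := inferInstance }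
  have : Fact p.Prime := ⟨hp⟩
  have hint : ∀ b : 𝓞 F, ((b : F) : Ω) ∈ A := fun b =>
    FreyReducible.mem_of_isIntegral_int A (b.isIntegral_coe.map (F.val.restrictScalars ℤ))
  let r₀ : 𝓞 F →+* A :=
    { toFun := fun b => ⟨((b : F) : Ω), hint b⟩
      map_one' := rfl
      map_mul' := fun _ _ => rfl
      map_zero' := rfl
      map_add' := fun _ _ => rfl }
  let r : 𝓞 F →+* IsLocalRing.ResidueField A := (IsLocalRing.residue A).comp r₀
  have hker : RingHom.ker r ≠ ⊥ := by
    intro h
    have hmem : (p : 𝓞 F) ∈ RingHom.ker r := by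
      have := Frobenius.residueField_charP hp hA
      rw [RingHom.mem_ker, map_natCast]
      exact CharP.cast_eq_zero _ p
    rw [h, Ideal.mem_bot] at hmem
    exact hp.ne_zero (by exact_mod_cast hmem)
  have : Finite (𝓞 F ⧸ RingHom.ker r) := Ring.HasFiniteQuotients.finiteQuotient hker
  classical
  have : Finite r.range := Finite.of_equiv _ (RingHom.quotientKerEquivRange r).toEquiv
  let _ : Fintype r.range := Fintype.ofFinite _
  let _ : Field r.range := Fintype.fieldOfDomain r.range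
  have := Frobenius.residueField_charP hp hA
  have : CharP r.range p := inferInstance
  let _ : Algebra (ZMod p) r.range := ZMod.algebra _ p
  let gD : A.decompositionSubgroup ℚ := ⟨g, hg⟩
  let gR : F ≃ₐ[ℚ] F := g.restrictNormal F
  have hgR : ∀ b : 𝓞 F, (((gR • b : 𝓞 F) : F) : Ω) = g ((b : F) : Ω) := fun b =>
    g.restrictNormal_commutes F (b : F)
  have hcomm : ∀ b : 𝓞 F, gD • r b = r (gR • b) := fun b => by
    show gD • IsLocalRing.residue A (r₀ b) = IsLocalRing.residue A (r₀ (gR • b))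
    rw [← IsLocalRing.ResidueField.residue_smul]
    exact congrArg _ (Subtype.ext (hgR b).symm)
  let e₀ : r.range →+* r.range :=
    { toFun := fun y => ⟨gD • (y : IsLocalRing.ResidueField A), by
        obtain ⟨b, hb⟩ := y.2
        exact ⟨gR • b, by rw [← hcomm, hb]⟩⟩
      map_one' := Subtype.ext (smul_one gD)
      map_mul' := fun a b => Subtype.ext (smul_mul' gD _ _)
      map_zero' := Subtype.ext (smul_zero gD)
      map_add' := fun a b => Subtype.ext (smul_add gD _ _) }
  have he₀ : Function.Bijective e₀ :=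
    Finite.injective_iff_bijective.mp fun a b h => Subtype.ext
      (MulAction.injective gD (congrArg Subtype.val h))
  let e : r.range ≃ₐ[ZMod p] r.range :=
    AlgEquiv.ofRingEquiv (f := RingEquiv.ofBijective e₀ he₀) fun x =>
      RingHom.congr_fun (RingHom.ext_zmod (e₀.comp (algebraMap (ZMod p) r.range))
        (algebraMap (ZMod p) r.range)) x
  obtain ⟨⟨n, hn⟩, hen⟩ :=
    (FiniteField.bijective_frobeniusAlgEquivOfAlgebraic_pow (ZMod p) r.range).2 e
  have hpow : ∀ y : r.range, gD • (y : IsLocalRing.ResidueField A) =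
      (y : IsLocalRing.ResidueField A) ^ p ^ n := by
    intro y
    have h1 : e y = (FiniteField.frobeniusAlgEquivOfAlgebraic (ZMod p) r.range ^ n) y :=
      congrArg (fun f : r.range ≃ₐ[ZMod p] r.range => f y) hen.symm
    rw [AlgEquiv.coe_pow, FiniteField.coe_frobeniusAlgEquivOfAlgebraic_iterate, ZMod.card] at h1
    exact congrArg Subtype.val h1
  have hφn : φ ^ n ∈ A.decompositionSubgroup ℚ := pow_mem hφ.mem_decompositionSubgroup n
  have hτ₀ : (φ ^ n)⁻¹ * g ∈ A.decompositionSubgroup ℚ := mul_mem (inv_mem hφn) hg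
  have key : ∀ b : 𝓞 F,
      ((φ ^ n)⁻¹ * g) ((b : F) : Ω) - ((b : F) : Ω) ∈ A.nonunits := by
    intro b
    have h1 : g ((b : F) : Ω) - ((b : F) : Ω) ^ p ^ n ∈ A.nonunits := by
      have := hpow ⟨r b, b, rfl⟩
      change gD • IsLocalRing.residue A (r₀ b) = IsLocalRing.residue A (r₀ b) ^ p ^ n at this
      rw [← IsLocalRing.ResidueField.residue_smul, ← map_pow, ← sub_eq_zero, ← map_sub,
        IsLocalRing.residue_eq_zero_iff, ← ValuationSubring.coe_mem_nonunits_iff] at this
      exact this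
    have h2 := frobenius_pow_sub_pow hφ (hint b) n
    rw [A.mem_nonunits_iff] at h1 h2 ⊢
    rw [← MultRed.decomp_isometry hφn, map_sub, AlgEquiv.mul_apply, ← AlgEquiv.mul_apply (φ ^ n),
      mul_inv_cancel, AlgEquiv.one_apply]
    rw [show g ((b : F) : Ω) - (φ ^ n) ((b : F) : Ω) =
      (g ((b : F) : Ω) - ((b : F) : Ω) ^ p ^ n) -
        ((φ ^ n) ((b : F) : Ω) - ((b : F) : Ω) ^ p ^ n) by ring]
    exact A.valuation.map_sub_lt h1 h2
  obtain ⟨τ, hτ, hτF⟩ := FreyReducible.exists_mem_inertiaSubgroupIn_extending hp.ne_zero hA F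
    (((φ ^ n)⁻¹ * g).restrictNormal F) fun b => by
      have h' : ((((φ ^ n)⁻¹ * g).restrictNormal F (b : F) : F) : Ω) =
          ((φ ^ n)⁻¹ * g) ((b : F) : Ω) := ((φ ^ n)⁻¹ * g).restrictNormal_commutes F (b : F)
      show ((((φ ^ n)⁻¹ * g).restrictNormal F (b : F) : F) : Ω) - ((b : F) : Ω) ∈ A.nonunits
      rw [h']
      exact key b
  refine ⟨n, τ, hτ, fun x hx => ?_⟩
  have h := hτF ⟨x, hx⟩
  have h' : ((((φ ^ n)⁻¹ * g).restrictNormal F ⟨x, hx⟩ : F) : Ω) = ((φ ^ n)⁻¹ * g) x :=
    ((φ ^ n)⁻¹ * g).restrictNormal_commutes F ⟨x, hx⟩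
  rw [h'] at h
  rw [AlgEquiv.mul_apply, h, ← AlgEquiv.mul_apply (φ ^ n), mul_inv_cancel_left]

/-- A finite level may be enlarged to a Galois one. -/
lemma exists_galois_level (L : IntermediateField ℚ Ω) [FiniteDimensional ℚ L] :
    ∃ F : IntermediateField ℚ Ω, L ≤ F ∧ FiniteDimensional ℚ F ∧ IsGalois ℚ F := by
  refine ⟨IntermediateField.normalClosure ℚ L Ω, IntermediateField.le_normalClosure _, ?_, ?_⟩
  · infer_instance
  · have : Normal ℚ (IntermediateField.normalClosure ℚ L Ω) := normalClosure.normal ℚ _ Ω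
    exact IsGalois.mk

/-- A homomorphism of finite level on the decomposition group which is trivial on inertia takes
only powers of its value at Frobenius. -/
theorem exists_eq_pow_of_trivial_on_inertia (hp : p.Prime) (hA : A.LiesOverPrime p)
    (φ : A.decompositionSubgroup ℚ) (hφ : A.IsFrobeniusAt (φ : G_ℚ) p) {M : Type*} [Monoid M]
    (f : A.decompositionSubgroup ℚ →* M) (hf : FiniteLevel A 1 f)
    (hI : ∀ g : A.decompositionSubgroup ℚ, (g : G_ℚ) ∈ A.inertiaSubgroupIn ℚ → f g = 1)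
    (g : A.decompositionSubgroup ℚ) : ∃ n : ℕ, f g = f φ ^ n := by
  obtain ⟨L, hL, hfL⟩ := hf
  obtain ⟨F, hLF, hF, hFg⟩ := exists_galois_level L
  obtain ⟨n, τ, hτ, heq⟩ := exists_pow_mul_inertia_eqOn hp hA hφ g.2 F
  let τD : A.decompositionSubgroup ℚ := ⟨τ, MultRed.inertia_mem_decomposition hτ⟩
  have hu : f ((φ ^ n * τD)⁻¹ * g) = 1 := hfL _ fun a ha => by
    show (((φ : G_ℚ) ^ n * τ)⁻¹ * (g : G_ℚ)) a = a
    rw [AlgEquiv.mul_apply, heq a (hLF ha), ← AlgEquiv.mul_apply, inv_mul_cancel,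
      AlgEquiv.one_apply]
  refine ⟨n, ?_⟩
  rw [show g = φ ^ n * τD * ((φ ^ n * τD)⁻¹ * g) from (mul_inv_cancel_left _ _).symm, map_mul,
    map_mul, map_pow, hu, hI τD hτ, mul_one, mul_one]

end Fermat.Agent.LocalRingP
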