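import Fermat.Agent.LocalRingP.Generation
import Fermat.Agent.FlatJ0.InertiaFixed
import Mathlib.RingTheory.RootsOfUnity.Lemmas
import Mathlib.RingTheory.Polynomial.Cyclotomic.Basic

/-!
# Classes of numbers fixed by an unramified subgroup modulo `p`-th powers

For `u` fixed by a subgroup `H` of the decomposition group containing inertia and a power `φ^m` of
Frobenius, with `N = p^m - 1`, the class of `u = p^k u₀` is the pair of `k` and the residue of
`(u₀^N - 1) / p`.  A class `(p k, 0)` means that `u^N` is a `p`-th power of a fixed number.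
-/

set_option autoImplicit false

noncomputable section

namespace Fermat.Agent.LocalRingP

local notation "Ω" => AlgebraicClosure ℚ
local notation "G_ℚ" => (AlgebraicClosure ℚ) ≃ₐ[ℚ] (AlgebraicClosure ℚ)

variable {A : ValuationSubring Ω} {p : ℕ}

local notation "D" => (A.decompositionSubgroup ℚ)
local notation "κ" => IsLocalRing.ResidueField A

/-- Fixed by a subgroup of the decomposition group. -/
def Fixed (H : Subgroup (A.decompositionSubgroup ℚ)) (u : Ω) : Prop :=
  ∀ g ∈ H, (g : G_ℚ) u = u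

namespace Fixed

variable {H : Subgroup (A.decompositionSubgroup ℚ)} {u v : Ω}

lemma natCast (n : ℕ) : Fixed H (n : Ω) := fun _ _ => map_natCast _ _

lemma one : Fixed H (1 : Ω) := fun _ _ => map_one _

lemma mul (hu : Fixed H u) (hv : Fixed H v) : Fixed H (u * v) := fun g hg => by
  rw [map_mul, hu g hg, hv g hg]

lemma div (hu : Fixed H u) (hv : Fixed H v) : Fixed H (u / v) := fun g hg => by
  rw [map_div₀, hu g hg, hv g hg]

lemma sub (hu : Fixed H u) (hv : Fixed H v) : Fixed H (u - v) := fun g hg => by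
  rw [map_sub, hu g hg, hv g hg]

lemma zpow (hu : Fixed H u) (n : ℤ) : Fixed H (u ^ n) := fun g hg => by
  rw [map_zpow₀, hu g hg]

lemma pow (hu : Fixed H u) (n : ℕ) : Fixed H (u ^ n) := fun g hg => by
  rw [map_pow, hu g hg]

end Fixed

/-- `u` has class `(k, y)` with respect to the exponent `N`. -/
def HasClass (A : ValuationSubring Ω) (p N : ℕ) (u : Ω) (k : ℤ)
    (y : IsLocalRing.ResidueField A) : Prop :=
  A.valuation u = A.valuation (p : Ω) ^ k ∧
    ∃ a : A, (u / (p : Ω) ^ k) ^ N = 1 + (p : Ω) * (a : Ω) ∧ IsLocalRing.residue A a = y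

variable (hp : p.Prime) (hA : A.LiesOverPrime p)

include hp hA in
lemma zpow_valuation_inj {a b : ℤ} (h : A.valuation (p : Ω) ^ a = A.valuation (p : Ω) ^ b) :
    a = b := by
  have hpos : 0 < A.valuation (p : Ω) := MultRed.vq_pos hp
  have hlt : A.valuation (p : Ω) < 1 := MultRed.vq_lt_one hA
  exact le_antisymm ((zpow_le_zpow_iff_right_of_lt_one₀ hpos hlt).mp h.ge)
    ((zpow_le_zpow_iff_right_of_lt_one₀ hpos hlt).mp h.le)

include hA in
lemma residue_natCast_eq_zero : IsLocalRing.residue A (p : A) = 0 := by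
  rw [IsLocalRing.residue_eq_zero_iff, ← ValuationSubring.coe_mem_nonunits_iff]
  exact_mod_cast (hA : (p : Ω) ∈ A.nonunits)

variable {N : ℕ} {u v : Ω} {k l : ℤ} {y y' : IsLocalRing.ResidueField A}

lemma hasClass_one : HasClass A p N 1 0 0 :=
  ⟨by simp, 0, by simp, map_zero _⟩

include hA in
lemma HasClass.mul (hu : HasClass A p N u k y) (hv : HasClass A p N v l y') (hp0 : (p : Ω) ≠ 0) :
    HasClass A p N (u * v) (k + l) (y + y') := by
  obtain ⟨hk, a, ha, hay⟩ := hu
  obtain ⟨hl, b, hb, hby⟩ := hv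
  refine ⟨by rw [map_mul, hk, hl, zpow_add₀ (A.valuation.ne_zero_iff.mpr hp0)],
    a + b + (p : A) * (a * b), ?_, ?_⟩
  · have e : u * v / (p : Ω) ^ (k + l) = u / (p : Ω) ^ k * (v / (p : Ω) ^ l) := by
      rw [zpow_add₀ hp0, div_mul_div_comm]
    rw [e, mul_pow, ha, hb]
    push_cast
    ring
  · simp [hay, hby, residue_natCast_eq_zero hA]

include hA in
lemma HasClass.pow (hu : HasClass A p N u k y) (hp0 : (p : Ω) ≠ 0) (n : ℕ) :
    HasClass A p N (u ^ n) (n * k) ((n : IsLocalRing.ResidueField A) * y) := by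
  induction n with
  | zero => simpa using hasClass_one
  | succ n ih =>
    have := ih.mul hA hu hp0
    rw [← pow_succ] at this
    convert this using 1 <;> push_cast <;> ring

include hp hA in
lemma HasClass.unique (hu : HasClass A p N u k y) (hu' : HasClass A p N u l y') :
    k = l ∧ y = y' := by
  obtain ⟨hk, a, ha, hay⟩ := hu
  obtain ⟨hl, b, hb, hby⟩ := hu'
  obtain rfl := zpow_valuation_inj hp hA (hk.symm.trans hl)
  refine ⟨rfl, ?_⟩
  have hab : (a : Ω) = b :=
    mul_left_cancel₀ (Nat.cast_ne_zero.mpr hp.ne_zero) (add_left_cancel (ha.symm.trans hb))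
  rw [← hay, ← hby, Subtype.ext hab]

include hA in
/-- The class of a `p`-th power. -/
lemma HasClass.pow_prime (hp : p.Prime) (hu : HasClass A p N u k y) :
    HasClass A p N (u ^ p) (p * k) 0 := by
  have := hu.pow hA (Nat.cast_ne_zero.mpr hp.ne_zero) p
  have := Frobenius.residueField_charP hp hA
  simpa [CharP.cast_eq_zero (IsLocalRing.ResidueField A) p] using
    hu.pow hA (Nat.cast_ne_zero.mpr hp.ne_zero) p

/-- Frobenius raises the second component to the `p`-th power. -/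
lemma HasClass.frobenius {φ : G_ℚ} (hφ : A.IsFrobeniusAt φ p) (hu : HasClass A p N u k y) :
    HasClass A p N (φ u) k (y ^ p) := by
  obtain ⟨hk, a, ha, hay⟩ := hu
  have hd := hφ.mem_decompositionSubgroup
  refine ⟨by rw [MultRed.decomp_isometry hd, hk],
    ⟨φ a, (FreyReducible.apply_mem_of_mem_decompositionSubgroup A hd).mpr a.2⟩, ?_, ?_⟩
  · have := congrArg φ ha
    simpa only [map_pow, map_div₀, map_zpow₀, map_natCast, map_add, map_one, map_mul] using this
  · rw [← hay, ← map_pow, ← sub_eq_zero, ← map_sub, IsLocalRing.residue_eq_zero_iff,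
      ← ValuationSubring.coe_mem_nonunits_iff]
    exact frobenius_sub_pow hφ a.2

variable {H : Subgroup (A.decompositionSubgroup ℚ)}
  (hIH : ∀ g : A.decompositionSubgroup ℚ, (g : G_ℚ) ∈ A.inertiaSubgroupIn ℚ → g ∈ H)

include hp hA hIH in
/-- Fixed numbers have integral powers of `|p|` as values. -/
lemma exists_valuation_of_fixed (hu0 : u ≠ 0) (hu : Fixed H u) :
    ∃ k : ℤ, A.valuation u = A.valuation (p : Ω) ^ k :=
  FlatJ0.exists_valuation_eq_zpow_of_fixed hp hA hu0 fun σ hσ =>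
    hu ⟨σ, MultRed.inertia_mem_decomposition hσ⟩ (hIH _ hσ)

include hp hA hIH in
/-- A fixed nonunit is divisible by `p`. -/
lemma valuation_le_of_fixed (hu : Fixed H u) (hlt : A.valuation u < 1) :
    A.valuation u ≤ A.valuation (p : Ω) := by
  rcases eq_or_ne u 0 with rfl | hu0
  · rw [map_zero]; exact zero_le
  obtain ⟨k, hk⟩ := exists_valuation_of_fixed hp hA hIH hu0 hu
  have hpos : 0 < A.valuation (p : Ω) := MultRed.vq_pos hp
  have hplt : A.valuation (p : Ω) < 1 := MultRed.vq_lt_one hA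
  rw [hk] at hlt ⊢
  have hk1 : (1 : ℤ) ≤ k := by
    by_contra hc
    refine hlt.not_ge ?_
    calc (1 : A.ValueGroup) = A.valuation (p : Ω) ^ (0 : ℤ) := (zpow_zero _).symm
      _ ≤ A.valuation (p : Ω) ^ k := zpow_le_zpow_right_of_le_one₀ hpos hplt.le (by omega)
  exact (zpow_le_zpow_right_of_le_one₀ hpos hplt.le hk1).trans_eq (zpow_one _)

variable {φ : A.decompositionSubgroup ℚ} {m : ℕ}

/-- The residue of a fixed integer lies in the field with `p ^ m` elements. -/
lemma residue_pow_of_fixed (hφ : A.IsFrobeniusAt (φ : G_ℚ) p) (hm : φ ^ m ∈ H) (hu : Fixed H u)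
    (huA : u ∈ A) :
    IsLocalRing.residue A ⟨u, huA⟩ ^ p ^ m = IsLocalRing.residue A ⟨u, huA⟩ := by
  have h1 := frobenius_pow_sub_pow hφ huA m
  have h2 : ((φ : G_ℚ) ^ m) u = u := hu _ hm
  rw [h2] at h1
  rw [← map_pow, eq_comm, ← sub_eq_zero, ← map_sub, IsLocalRing.residue_eq_zero_iff,
    ← ValuationSubring.coe_mem_nonunits_iff]
  exact h1

include hp hA hIH in
/-- Fixed numbers have classes. -/
theorem exists_hasClass (hφ : A.IsFrobeniusAt (φ : G_ℚ) p) (hm : φ ^ m ∈ H)
    (hu0 : u ≠ 0) (hu : Fixed H u) :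
    ∃ k y, HasClass A p (p ^ m - 1) u k y := by
  obtain ⟨k, hk⟩ := exists_valuation_of_fixed hp hA hIH hu0 hu
  have hp0 : (p : Ω) ≠ 0 := Nat.cast_ne_zero.mpr hp.ne_zero
  set w := u / (p : Ω) ^ k with hw
  have hwH : Fixed H w := hu.div ((Fixed.natCast p).zpow k)
  have hw1 : A.valuation w = 1 := by
    rw [hw, map_div₀, map_zpow₀, ← hk, div_self (A.valuation.ne_zero_iff.mpr hu0)]
  have hwA : w ∈ A := (A.valuation_le_one_iff w).mp hw1.le
  have hpm : 1 ≤ p ^ m := Nat.one_le_pow _ _ hp.pos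
  have hres0 : IsLocalRing.residue A ⟨w, hwA⟩ ≠ 0 :=
    (MultRed.residue_ne_zero_iff ⟨w, hwA⟩).mpr hw1
  have hres : IsLocalRing.residue A ⟨w, hwA⟩ ^ (p ^ m - 1) = 1 := by
    refine mul_left_cancel₀ hres0 ?_
    rw [← pow_succ', Nat.sub_add_cancel hpm, mul_one, residue_pow_of_fixed hφ hm hwH hwA]
  have hlt : A.valuation (w ^ (p ^ m - 1) - 1) < 1 := by
    rw [← map_pow, ← map_one (IsLocalRing.residue A), ← sub_eq_zero, ← map_sub,
      IsLocalRing.residue_eq_zero_iff, ← ValuationSubring.coe_mem_nonunits_iff,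
      A.mem_nonunits_iff] at hres
    exact hres
  have hle := valuation_le_of_fixed hp hA hIH ((hwH.pow _).sub Fixed.one) hlt
  have ha : (w ^ (p ^ m - 1) - 1) / (p : Ω) ∈ A := by
    rw [← A.valuation_le_one_iff, map_div₀, div_le_one₀ (MultRed.vq_pos hp)]
    exact hle
  exact ⟨k, _, hk, ⟨_, ha⟩, by rw [mul_div_cancel₀ _ hp0, add_sub_cancel], rfl⟩

variable {ζ : Ω}

include hp in
/-- `|x| < |1 - ζ|` when `|x|^p ≤ |p|^2`. -/
lemma lt_valuation_one_sub (hp3 : 3 ≤ p) (hA : A.LiesOverPrime p) (hζ : IsPrimitiveRoot ζ p)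
    {x : Ω} (hx : A.valuation x ^ p ≤ A.valuation (p : Ω) ^ 2) :
    A.valuation x < A.valuation (1 - ζ) := by
  have hpos : 0 < A.valuation (p : Ω) := MultRed.vq_pos hp
  have hlt : A.valuation (p : Ω) < 1 := MultRed.vq_lt_one hA
  have hζv : A.valuation ζ ≤ 1 := by
    refine (pow_le_one_iff hp.ne_zero).mp ?_
    rw [← map_pow, hζ.pow_eq_one, map_one]
  have hprod : A.valuation (p : Ω) ≤ A.valuation (1 - ζ) ^ (p - 1) := by
    obtain ⟨n, hn⟩ : ∃ n, p = n + 1 := ⟨p - 1, by omega⟩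
    have h1 := (hn ▸ hζ).prod_one_sub_pow_eq_order
    have hcast : (p : Ω) = (n : Ω) + 1 := by rw [hn]; push_cast; ring
    rw [hcast, ← h1, map_prod, show p - 1 = (Finset.range n).card by simp [hn]]
    rw [← Finset.prod_const]
    refine Finset.prod_le_prod' fun i _ => ?_
    rw [show (1 : Ω) - ζ ^ (i + 1) = (1 - ζ) * ∑ j ∈ Finset.range (i + 1), ζ ^ j from
      (mul_neg_geom_sum ζ (i + 1)).symm, map_mul]
    refine mul_le_of_le_one_right' ?_
    refine A.valuation.map_sum_le fun j _ => ?_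
    rw [map_pow]
    exact pow_le_one₀ zero_le hζv
  by_contra hc
  push Not at hc
  have h2 : A.valuation (p : Ω) ^ p ≤ A.valuation (p : Ω) ^ (2 * (p - 1)) := by
    calc A.valuation (p : Ω) ^ p ≤ (A.valuation (1 - ζ) ^ (p - 1)) ^ p :=
          pow_le_pow_left₀ zero_le hprod p
      _ ≤ (A.valuation x ^ (p - 1)) ^ p := pow_le_pow_left₀ zero_le (pow_le_pow_left₀ zero_le hc _) p
      _ = (A.valuation x ^ p) ^ (p - 1) := by rw [← pow_mul, ← pow_mul, mul_comm]
      _ ≤ (A.valuation (p : Ω) ^ 2) ^ (p - 1) := pow_le_pow_left₀ zero_le hx _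
      _ = A.valuation (p : Ω) ^ (2 * (p - 1)) := by rw [← pow_mul]
  have h3 := (pow_le_pow_iff_right_of_lt_one₀ hpos hlt).mp h2
  omega

include hp hA hIH in
/-- A class `(p k, 0)` gives a fixed `p`-th root of the `N`-th power. -/
theorem exists_root_of_hasClass (hp3 : 3 ≤ p) (hζ : IsPrimitiveRoot ζ p) (hu : Fixed H u)
    (hc : HasClass A p N u ((p : ℤ) * k) 0) :
    ∃ x : Ω, x ≠ 0 ∧ Fixed H x ∧ x ^ p = u ^ N := by
  obtain ⟨hk, a, ha, hay⟩ := hc
  have hp0 : (p : Ω) ≠ 0 := Nat.cast_ne_zero.mpr hp.ne_zero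
  have hpos : 0 < A.valuation (p : Ω) := MultRed.vq_pos hp
  set w : Ω := (u / (p : Ω) ^ ((p : ℤ) * k)) ^ N with hw
  have hwH : Fixed H w := (hu.div ((Fixed.natCast p).zpow _)).pow N
  have haH : Fixed H (a : Ω) := by
    have e : (a : Ω) = (w - 1) / (p : Ω) := by
      rw [ha, add_sub_cancel_left, mul_div_cancel_left₀ _ hp0]
    rw [e]
    exact (hwH.sub Fixed.one).div (Fixed.natCast p)
  have hal : A.valuation (a : Ω) < 1 := by
    rw [IsLocalRing.residue_eq_zero_iff, ← ValuationSubring.coe_mem_nonunits_iff,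
      A.mem_nonunits_iff] at hay
    exact hay
  have hw2 : A.valuation (w - 1) ≤ A.valuation (p : Ω) ^ 2 := by
    rw [ha, add_sub_cancel_left, map_mul, sq]
    exact mul_le_mul' le_rfl (valuation_le_of_fixed hp hA hIH haH hal)
  obtain ⟨y₀, hy₀⟩ := IsAlgClosed.exists_pow_nat_eq w hp.pos
  -- the root closest to `1`
  have hne : (Polynomial.nthRootsFinset p (1 : Ω)).Nonempty :=
    ⟨1, (Polynomial.mem_nthRootsFinset hp.pos 1).mpr (one_pow p)⟩
  obtain ⟨η, hη, hmin⟩ :=
    Finset.exists_min_image _ (fun η => A.valuation (y₀ - η * 1)) hne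
  have hclose : A.valuation (y₀ - η * 1) ^ p ≤ A.valuation (p : Ω) ^ 2 := by
    refine le_trans ?_ hw2
    rw [← hy₀, show (y₀ ^ p - 1 : Ω) = y₀ ^ p - 1 ^ p by rw [one_pow],
      hζ.pow_sub_pow_eq_prod_sub_mul y₀ 1 hp.pos, map_prod]
    refine le_trans (le_of_eq ?_) (Finset.pow_card_le_prod _ _ _ hmin)
    rw [hζ.card_nthRootsFinset]
  rw [Polynomial.mem_nthRootsFinset hp.pos] at hη
  rw [mul_one] at hclose
  have hη0 : η ≠ 0 := fun e => by simp [e, hp.ne_zero] at hη
  have hηv : A.valuation η = 1 := by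
    refine (pow_eq_one_iff.mp ?_).resolve_right hp.ne_zero
    rw [← map_pow, hη, map_one]
  set y := y₀ / η with hy
  have hyp : y ^ p = w := by rw [hy, div_pow, hy₀, hη, div_one]
  have hy1 : A.valuation (y - 1) < A.valuation (1 - ζ) := by
    refine lt_valuation_one_sub hp hp3 hA hζ ?_
    have e : y - 1 = (y₀ - η) / η := by rw [hy, sub_div, div_self hη0]
    rwa [e, map_div₀, hηv, div_one]
  have hy0 : y ≠ 0 := by
    intro e
    rw [e, zero_sub, Valuation.map_neg, map_one] at hy1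
    refine hy1.not_ge ?_
    refine le_trans (A.valuation.map_sub _ _) ?_
    rw [map_one, max_le_iff]
    refine ⟨le_rfl, le_of_eq ((pow_eq_one_iff.mp ?_).resolve_right hp.ne_zero)⟩
    rw [← map_pow, hζ.pow_eq_one, map_one]
  have hyv : A.valuation y = 1 := by
    refine (pow_eq_one_iff.mp ?_).resolve_right hp.ne_zero
    have hplt : A.valuation (p : Ω) < 1 := MultRed.vq_lt_one hA
    rw [← map_pow, hyp, show w = 1 + (w - 1) by ring,
      A.valuation.map_one_add_of_lt (hw2.trans_lt (pow_lt_one₀ zero_le hplt two_ne_zero))]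
  have : NeZero p := ⟨hp.ne_zero⟩
  have hyH : Fixed H y := by
    intro g hg
    by_contra hgy
    have hroot : ((g : G_ℚ) y / y) ^ p = 1 := by
      rw [div_pow, ← map_pow, hyp, hwH g hg, div_self]
      rw [← hyp]; exact pow_ne_zero p hy0
    obtain ⟨i, -, hi⟩ := hζ.eq_pow_of_pow_eq_one hroot
    have hi0 : ¬ p ∣ i := by
      intro hdvd
      refine hgy ((div_eq_one_iff_eq hy0).mp ?_)
      rw [← hi]
      exact (hζ.pow_eq_one_iff_dvd i).mpr hdvd
    have hζi : IsPrimitiveRoot (ζ ^ i) p :=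
      hζ.pow_of_coprime i ((hp.coprime_iff_not_dvd.mpr hi0).symm)
    have e1 : (g : G_ℚ) y = ζ ^ i * y := by rw [hi, div_mul_cancel₀ _ hy0]
    have e2 : A.valuation ((g : G_ℚ) y - y) = A.valuation (1 - ζ ^ i) := by
      rw [e1, show ζ ^ i * y - y = -((1 - ζ ^ i) * y) by ring, Valuation.map_neg, map_mul, hyv,
        mul_one]
    have e3 : A.valuation ((g : G_ℚ) y - y) ≤ A.valuation (y - 1) := by
      rw [show (g : G_ℚ) y - y = ((g : G_ℚ) (y - 1)) - (y - 1) by rw [map_sub, map_one]; ring]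
      refine le_trans (A.valuation.map_sub _ _) ?_
      rw [MultRed.decomp_isometry g.2, max_self]
    have e4 : A.valuation (y - 1) < A.valuation (1 - ζ ^ i) := by
      refine lt_valuation_one_sub hp hp3 hA hζi ?_
      have e : y - 1 = (y₀ - η) / η := by rw [hy, sub_div, div_self hη0]
      rwa [e, map_div₀, hηv, div_one]
    exact e4.not_ge (e2 ▸ e3)
  refine ⟨((p : Ω) ^ k) ^ N * y, mul_ne_zero (pow_ne_zero _ (zpow_ne_zero _ hp0)) hy0,
    (((Fixed.natCast p).zpow k).pow N).mul hyH, ?_⟩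
  rw [mul_pow, hyp, hw, ← pow_mul, mul_comm N p, pow_mul, ← mul_pow]
  congr 1
  rw [mul_comm (p : ℤ) k, zpow_mul, zpow_natCast, mul_comm,
    div_mul_cancel₀ _ (pow_ne_zero _ (zpow_ne_zero _ hp0))]

end Fermat.Agent.LocalRingP
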