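import Fermat.Agent.LocalRingP.KummerClass
import Mathlib.NumberTheory.LegendreSymbol.AddCharacter
import Mathlib.LinearAlgebra.LinearIndependent.Lemmas
import Mathlib.LinearAlgebra.LinearIndependent.Basic

/-!
# The Kummer class of an additive cocycle of an unramified subgroup

For a subgroup `H` of the decomposition group and `β : H → ZMod p` with
`β (g h) = β g + ω g β h`, a Lagrange resolvent `z` satisfies `g z = ζ ^ β g · z` on `H`; the class
of `z ^ p` modulo `(p, p)` depends on `β` only, is additive and detects `β`.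
-/

set_option autoImplicit false

noncomputable section

namespace Fermat.Agent.LocalRingP

local notation "Ω" => AlgebraicClosure ℚ
local notation "G_ℚ" => (AlgebraicClosure ℚ) ≃ₐ[ℚ] (AlgebraicClosure ℚ)

/-- The data for Kummer theory along a subgroup `H` of the decomposition group containing inertia
and a power of Frobenius. -/
structure KummerData (A : ValuationSubring (AlgebraicClosure ℚ)) (p : ℕ) where
  prime : p.Prime
  three_le : 3 ≤ p
  liesOver : A.LiesOverPrime p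
  ζ : AlgebraicClosure ℚ
  hζ : IsPrimitiveRoot ζ p
  ω : A.decompositionSubgroup ℚ →* ZMod p
  act : ∀ g : A.decompositionSubgroup ℚ,
    (g : AlgebraicClosure ℚ ≃ₐ[ℚ] AlgebraicClosure ℚ) ζ = ζ ^ (ω g).val
  H : Subgroup (A.decompositionSubgroup ℚ)
  inertia_le : ∀ g : A.decompositionSubgroup ℚ,
    (g : AlgebraicClosure ℚ ≃ₐ[ℚ] AlgebraicClosure ℚ) ∈ A.inertiaSubgroupIn ℚ → g ∈ H
  φ : A.decompositionSubgroup ℚ
  frob : A.IsFrobeniusAt (φ : AlgebraicClosure ℚ ≃ₐ[ℚ] AlgebraicClosure ℚ) p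
  conj : ∀ g ∈ H, φ⁻¹ * g * φ ∈ H
  m : ℕ
  m_pos : 0 < m
  pow_mem : φ ^ m ∈ H
  σ₀ : A.decompositionSubgroup ℚ
  σ₀_mem : σ₀ ∈ H
  ω_σ₀ : ω σ₀ ≠ 1

namespace KummerData

variable {A : ValuationSubring Ω} {p : ℕ} (K : KummerData A p)

/-- The exponent killing the residues of fixed units. -/
def N : ℕ := p ^ K.m - 1

include K in
lemma neZero : NeZero p := ⟨K.prime.ne_zero⟩

lemma N_cast : (K.N : ZMod p) = -1 := by
  rw [N, Nat.cast_sub (Nat.one_le_pow _ _ K.prime.pos), Nat.cast_pow, ZMod.natCast_self,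
    zero_pow K.m_pos.ne', Nat.cast_one, zero_sub]

/-- `x ↦ ζ ^ x`. -/
def e : AddChar (ZMod p) Ω :=
  haveI := K.neZero
  AddChar.zmodChar p K.hζ.pow_eq_one

lemma e_apply (x : ZMod p) : K.e x = K.ζ ^ x.val := rfl

lemma act_e (g : A.decompositionSubgroup ℚ) (x : ZMod p) :
    (g : G_ℚ) (K.e x) = K.e (K.ω g * x) := by
  have := K.neZero
  rw [e_apply, map_pow, K.act, ← pow_mul, e_apply, ZMod.val_mul,
    ← pow_eq_pow_mod _ K.hζ.pow_eq_one]

lemma e_ne_zero (x : ZMod p) : K.e x ≠ 0 := by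
  have := K.neZero
  exact pow_ne_zero _ (K.hζ.ne_zero K.prime.ne_zero)

lemma e_injective : Function.Injective K.e := by
  have := K.neZero
  intro x y h
  exact ZMod.val_injective p (K.hζ.pow_inj x.val_lt y.val_lt h)

lemma e_pow (x : ZMod p) : K.e x ^ p = 1 := by
  rw [e_apply, ← pow_mul, mul_comm, pow_mul, K.hζ.pow_eq_one, one_pow]

/-- A twisted additive cocycle of `H` of finite level. -/
def IsTwisted (β : A.decompositionSubgroup ℚ → ZMod p) : Prop :=
  (∀ g ∈ K.H, ∀ h ∈ K.H, β (g * h) = β g + K.ω g * β h) ∧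
  ∃ L : IntermediateField ℚ Ω, FiniteDimensional ℚ L ∧
    ∀ g : A.decompositionSubgroup ℚ, (∀ a ∈ L, (g : G_ℚ) a = a) → g ∈ K.H ∧ β g = 0

/-- `z` is an eigenvector for `β`. -/
def IsEigen (β : A.decompositionSubgroup ℚ → ZMod p) (z : Ω) : Prop :=
  ∀ g ∈ K.H, (g : G_ℚ) z = K.e (β g) * z

lemma exists_isEigen {β : A.decompositionSubgroup ℚ → ZMod p} (hβ : K.IsTwisted β) :
    ∃ z, z ≠ 0 ∧ K.IsEigen β z := by
  classical
  have := K.neZero
  obtain ⟨hmul, L, hL, hLz⟩ := hβ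
  obtain ⟨F, hLF, hF, hFg⟩ := exists_galois_level L
  let R : A.decompositionSubgroup ℚ →* (F ≃ₐ[ℚ] F) :=
    (AlgEquiv.restrictNormalHom F).comp (A.decompositionSubgroup ℚ).subtype
  have hR : ∀ (g : A.decompositionSubgroup ℚ) (x : F), ((R g x : F) : Ω) = (g : G_ℚ) (x : Ω) :=
    fun g x => (g : G_ℚ).restrictNormal_commutes F x
  have hker : ∀ g, R g = 1 → g ∈ K.H ∧ β g = 0 := fun g hg => hLz g fun a ha => by
    have := hR g ⟨a, hLF ha⟩
    rw [hg] at this
    exact this.symm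
  let S : Subgroup (F ≃ₐ[ℚ] F) := K.H.map R
  have : Fintype S := Fintype.ofFinite _
  choose s hs using fun γ : S => Subgroup.mem_map.mp γ.2
  have hβeq : ∀ a ∈ K.H, ∀ b ∈ K.H, R a = R b → β a = β b := fun a ha b hb hab => by
    have h1 := hker (a⁻¹ * b) (by rw [map_mul, map_inv, hab, inv_mul_cancel])
    have h2 := hmul a ha _ h1.1
    rw [mul_inv_cancel_left, h1.2, mul_zero, add_zero] at h2
    exact h2.symm
  let c : S → Ω := fun γ => K.e (-β (s γ))
  let f : S → F →* Ω := fun γ =>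
    ((F.val.toRingHom.comp ((γ : F ≃ₐ[ℚ] F) : F →+* F) : F →+* Ω) : F →* Ω)
  have hf : Function.Injective f := fun a b hab => Subtype.ext (AlgEquiv.ext fun x =>
    Subtype.ext (DFunLike.congr_fun hab x))
  have hind : LinearIndependent Ω fun γ => (f γ : F → Ω) :=
    (linearIndependent_monoidHom F Ω).comp f hf
  obtain ⟨w, hw⟩ : ∃ w : F, ∑ γ, c γ * f γ w ≠ 0 := by
    by_contra hc
    push Not at hc
    have h0 := Fintype.linearIndependent_iff.mp hind c (funext fun w => by simpa using hc w) 1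
    exact K.e_ne_zero _ h0
  refine ⟨_, hw, fun g hg => ?_⟩
  let gS : S := ⟨R g, Subgroup.mem_map.mpr ⟨g, hg, rfl⟩⟩
  rw [map_sum, Finset.mul_sum]
  refine Fintype.sum_equiv (Equiv.mulLeft gS) _ _ fun γ => ?_
  have hβγ : β (s (gS * γ)) = β g + K.ω g * β (s γ) := by
    rw [← hmul g hg _ (hs γ).1]
    refine hβeq _ (hs _).1 _ (mul_mem hg (hs γ).1) ?_
    rw [map_mul, (hs _).2, (hs γ).2]
    rfl
  show (g : G_ℚ) (c γ * f γ w) = K.e (β g) * (c (gS * γ) * f (gS * γ) w)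
  rw [map_mul, ← mul_assoc]
  congr 1
  · rw [K.act_e, ← AddChar.map_add_eq_mul, hβγ]
    congr 1
    ring
  · exact (hR g _).symm

/-- `(n mod p, y)` is the class of the cocycle `β`. -/
def HasCharClass (β : A.decompositionSubgroup ℚ → ZMod p) (n : ZMod p)
    (y : IsLocalRing.ResidueField A) : Prop :=
  ∃ z : Ω, z ≠ 0 ∧ K.IsEigen β z ∧ ∃ j : ℤ, (j : ZMod p) = n ∧ HasClass A p K.N (z ^ p) j y

lemma fixed_pow_of_isEigen {β : A.decompositionSubgroup ℚ → ZMod p} {z : Ω}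
    (hz : K.IsEigen β z) : Fixed K.H (z ^ p) := fun g hg => by
  rw [map_pow, hz g hg, mul_pow, K.e_pow, one_mul]

lemma exists_hasCharClass {β : A.decompositionSubgroup ℚ → ZMod p} (hβ : K.IsTwisted β) :
    ∃ n y, K.HasCharClass β n y := by
  obtain ⟨z, hz0, hz⟩ := K.exists_isEigen hβ
  obtain ⟨j, y, hj⟩ := exists_hasClass K.prime K.liesOver K.inertia_le K.frob K.pow_mem
    (pow_ne_zero p hz0) (K.fixed_pow_of_isEigen hz)
  exact ⟨_, y, z, hz0, hz, j, rfl, hj⟩

lemma HasCharClass.unique {K : KummerData A p} {β : A.decompositionSubgroup ℚ → ZMod p}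
    {n n' : ZMod p} {y y' : IsLocalRing.ResidueField A} (h : K.HasCharClass β n y)
    (h' : K.HasCharClass β n' y') : n = n' ∧ y = y' := by
  obtain ⟨z, hz0, hz, j, rfl, hj⟩ := h
  obtain ⟨z', hz0', hz', j', rfl, hj'⟩ := h'
  have hp0 : (p : Ω) ≠ 0 := Nat.cast_ne_zero.mpr K.prime.ne_zero
  have hr : Fixed K.H (z' / z) := fun g hg => by
    rw [map_div₀, hz g hg, hz' g hg, mul_div_mul_left _ _ (K.e_ne_zero _)]
  obtain ⟨k, x, hk⟩ := exists_hasClass K.prime K.liesOver K.inertia_le K.frob K.pow_mem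
    (div_ne_zero hz0' hz0) hr
  have hmul := hj.mul K.liesOver (hk.pow_prime K.liesOver K.prime) hp0
  rw [← mul_pow, mul_div_cancel₀ _ hz0, add_zero] at hmul
  obtain ⟨e1, e2⟩ := hmul.unique K.prime K.liesOver hj'
  refine ⟨?_, e2⟩
  rw [← e1]
  simp

lemma HasCharClass.add {K : KummerData A p} {β β' : A.decompositionSubgroup ℚ → ZMod p}
    {n n' : ZMod p} {y y' : IsLocalRing.ResidueField A} (h : K.HasCharClass β n y)
    (h' : K.HasCharClass β' n' y') : K.HasCharClass (β + β') (n + n') (y + y') := by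
  obtain ⟨z, hz0, hz, j, rfl, hj⟩ := h
  obtain ⟨z', hz0', hz', j', rfl, hj'⟩ := h'
  refine ⟨z * z', mul_ne_zero hz0 hz0', fun g hg => ?_, j + j', Int.cast_add j j', ?_⟩
  · rw [map_mul, hz g hg, hz' g hg, Pi.add_apply, AddChar.map_add_eq_mul]
    ring
  · rw [mul_pow]
    exact hj.mul K.liesOver hj' (Nat.cast_ne_zero.mpr K.prime.ne_zero)

/-- A cocycle with trivial class which vanishes at `σ₀` vanishes. -/
lemma eq_zero_of_hasCharClass {β : A.decompositionSubgroup ℚ → ZMod p} (hσ : β K.σ₀ = 0)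
    (h : K.HasCharClass β 0 0) : ∀ g ∈ K.H, β g = 0 := by
  have := Fact.mk K.prime
  have := K.neZero
  obtain ⟨z, hz0, hz, j, hj0, hj⟩ := h
  obtain ⟨k, rfl⟩ := (ZMod.intCast_zmod_eq_zero_iff_dvd j p).mp hj0
  obtain ⟨x, hx0, hxH, hx⟩ := exists_root_of_hasClass K.prime K.liesOver K.inertia_le K.three_le
    K.hζ (K.fixed_pow_of_isEigen hz) hj
  obtain ⟨i, -, hi⟩ := K.hζ.eq_pow_of_pow_eq_one
    (show (z ^ K.N / x) ^ p = 1 by rw [div_pow, hx, ← pow_mul, ← pow_mul, mul_comm, div_self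
      (pow_ne_zero _ hz0)])
  have hiz : z ^ K.N = K.e (i : ZMod p) * x := by
    rw [e_apply, ZMod.val_natCast, ← pow_eq_pow_mod _ K.hζ.pow_eq_one, hi,
      div_mul_cancel₀ _ hx0]
  have key : ∀ g ∈ K.H, (K.N : ZMod p) * β g + i = K.ω g * i := fun g hg => by
    refine K.e_injective ?_
    have h1 := congrArg (g : G_ℚ) hiz
    rw [map_pow, hz g hg, mul_pow, map_mul, K.act_e, hxH g hg, hiz, ← mul_assoc,
      ← AddChar.map_nsmul_eq_pow, nsmul_eq_mul, ← AddChar.map_add_eq_mul] at h1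
    exact mul_right_cancel₀ hx0 h1
  have hi0 : (i : ZMod p) = 0 := by
    have h1 := key _ K.σ₀_mem
    rw [hσ, mul_zero, zero_add] at h1
    by_contra hne
    exact K.ω_σ₀ (mul_right_cancel₀ hne (h1.symm.trans (one_mul _).symm))
  intro g hg
  simpa [hi0, K.N_cast] using key g hg

/-- Transport of classes by Frobenius. -/
lemma HasCharClass.frobenius {K : KummerData A p} {β β' : A.decompositionSubgroup ℚ → ZMod p}
    {n : ZMod p} {y : IsLocalRing.ResidueField A} (c : ZMod p)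
    (hrel : ∀ g ∈ K.H, β g = K.ω K.φ * β' (K.φ⁻¹ * g * K.φ) - (K.ω g - 1) * c)
    (h : K.HasCharClass β' n y) : K.HasCharClass β n (y ^ p) := by
  obtain ⟨z, hz0, hz, j, rfl, hj⟩ := h
  refine ⟨K.e (-c) * (K.φ : G_ℚ) z, mul_ne_zero (K.e_ne_zero _) (by simpa using hz0),
    fun g hg => ?_, j, rfl, ?_⟩
  · have h1 : (g : G_ℚ) ((K.φ : G_ℚ) z) =
        (K.φ : G_ℚ) (((K.φ⁻¹ * g * K.φ : A.decompositionSubgroup ℚ) : G_ℚ) z) := by
      simp only [← AlgEquiv.mul_apply, ← Subgroup.coe_mul]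
      congr 2
      group
    rw [map_mul, K.act_e, h1, hz _ (K.conj g hg), map_mul (K.φ : G_ℚ), K.act_e, hrel g hg, ← mul_assoc,
      ← AddChar.map_add_eq_mul, ← mul_assoc, ← AddChar.map_add_eq_mul]
    congr 2
    ring
  · rw [mul_pow, K.e_pow, one_mul, ← map_pow]
    exact hj.frobenius K.frob

end KummerData

end Fermat.Agent.LocalRingP
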