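import Mathlib.FieldTheory.Finite.Basic
import Mathlib.Algebra.BigOperators.Field
import Mathlib.LinearAlgebra.Dimension.Constructions
import Mathlib.LinearAlgebra.Dimension.Free
import Mathlib.LinearAlgebra.FreeModule.Finite.Matrix

/-!
# The solutions of a semilinear equation form a space of bounded size

Linear maps `X` to a field of characteristic `p` with `X μ = X (S μ) ^ p` which are independent
over `ZMod p` are independent over the field.
-/

set_option autoImplicit false

noncomputable section

namespace Fermat.Agent.LocalRingP

variable {p : ℕ} [Fact p.Prime] {E κ : Type*} [AddCommGroup E] [Module (ZMod p) E]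
  [Field κ] [Algebra (ZMod p) κ]

/-- A root of `X ^ p - X` lies in the prime field. -/
lemma exists_algebraMap_of_pow_prime {a : κ} (ha : a ^ p = a) :
    ∃ c : ZMod p, algebraMap (ZMod p) κ c = a := by
  have hcp : CharP κ p := charP_of_injective_algebraMap (algebraMap (ZMod p) κ).injective p
  have h : a ∈ (⊥ : Subfield κ) := (Subfield.mem_bot_iff_pow_eq_self κ p).mpr ha
  have hle : (⊥ : Subfield κ) ≤ (algebraMap (ZMod p) κ).fieldRange := bot_le
  exact RingHom.mem_fieldRange.mp (hle h)

/-- Relations over the field among semilinear solutions independent over `ZMod p` vanish. -/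
lemma eq_zero_of_relation (S : E →ₗ[ZMod p] E) {ι : Type*} (X : ι → E →ₗ[ZMod p] κ)
    (hX : ∀ i μ, X i μ = X i (S μ) ^ p) (hind : LinearIndependent (ZMod p) X)
    (s : Finset ι) (a : ι → κ) (h : ∀ μ, ∑ i ∈ s, a i * X i μ = 0) : ∀ i ∈ s, a i = 0 := by
  classical
  have hcp : CharP κ p := charP_of_injective_algebraMap (algebraMap (ZMod p) κ).injective p
  induction s using Finset.induction_on generalizing a with
  | empty => simp
  | insert j t hj ih =>
    by_cases haj : a j = 0
    · intro i hi
      rcases Finset.mem_insert.mp hi with rfl | hi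
      · exact haj
      · exact ih a (fun μ => by simpa [Finset.sum_insert hj, haj] using h μ) i hi
    exfalso
    let b : ι → κ := fun i => a i / a j
    have hb : ∀ μ, ∑ i ∈ insert j t, b i * X i μ = 0 := fun μ => by
      simp only [b, div_mul_eq_mul_div, ← Finset.sum_div, h μ, zero_div]
    have hbp : ∀ μ, ∑ i ∈ insert j t, b i ^ p * X i μ = 0 := fun μ => by
      have := congrArg (fun x : κ => x ^ p) (hb (S μ))
      simpa only [sum_pow_char, mul_pow, ← hX, zero_pow (Fact.out : p.Prime).ne_zero] using this
    have hbj : b j = 1 := div_self haj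
    have hdiff := ih (fun i => b i ^ p - b i) fun μ => by
      have h1 := hbp μ
      rw [Finset.sum_insert hj, hbj, one_pow, one_mul] at h1
      have h2 := hb μ
      rw [Finset.sum_insert hj, hbj, one_mul] at h2
      simp only [sub_mul, Finset.sum_sub_distrib]
      linear_combination h1 - h2
    have hfix : ∀ i ∈ insert j t, ∃ c : ZMod p, algebraMap (ZMod p) κ c = b i := fun i hi => by
      refine exists_algebraMap_of_pow_prime ?_
      rcases Finset.mem_insert.mp hi with rfl | hi
      · rw [hbj, one_pow]
      · exact sub_eq_zero.mp (hdiff i hi)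
    choose! c hc using hfix
    have hrel : ∑ i ∈ insert j t, c i • X i = 0 := by
      refine LinearMap.ext fun μ => ?_
      simp only [LinearMap.sum_apply, LinearMap.smul_apply, LinearMap.zero_apply, Algebra.smul_def]
      rw [← hb μ]
      exact Finset.sum_congr rfl fun i hi => by rw [hc i hi]
    have hcj := linearIndependent_iff'.mp hind _ c hrel j (Finset.mem_insert_self j t)
    have := hc j (Finset.mem_insert_self j t)
    rw [hcj, map_zero, hbj] at this
    exact zero_ne_one this

/-- The space of semilinear solutions has dimension at most that of the source. -/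
theorem finrank_semilinear_le [FiniteDimensional (ZMod p) E] (S : E →ₗ[ZMod p] E)
    (P : Submodule (ZMod p) (E →ₗ[ZMod p] κ)) (hP : ∀ X ∈ P, ∀ μ, X μ = X (S μ) ^ p) :
    FiniteDimensional (ZMod p) P ∧
      Module.finrank (ZMod p) P ≤ Module.finrank (ZMod p) E := by
  let e := Module.finBasis (ZMod p) E
  have hrank : Module.rank (ZMod p) P ≤ (Module.finrank (ZMod p) E : Cardinal) := by
    refine rank_le fun s hs => ?_
    let X : s → E →ₗ[ZMod p] κ := fun i => (i : P).1
    have hind : LinearIndependent (ZMod p) X := hs.map' P.subtype (Submodule.ker_subtype P)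
    have hκ : LinearIndependent κ fun (i : s) l => X i (e l) := by
      refine Fintype.linearIndependent_iff.mpr fun a ha i => ?_
      refine eq_zero_of_relation S X (fun i μ => hP _ (i : P).2 μ) hind Finset.univ a ?_ i
        (Finset.mem_univ i)
      intro μ
      have hzero : (∑ i, a i • X i : E →ₗ[ZMod p] κ) = 0 := by
        refine e.ext fun l => ?_
        have := congrFun ha l
        simpa using this
      simpa using LinearMap.congr_fun hzero μ
    simpa using hκ.fintype_card_le_finrank
  have hfin : FiniteDimensional (ZMod p) P :=
    Module.rank_lt_aleph0_iff.mp (hrank.trans_lt Cardinal.natCast_lt_aleph0)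
  refine ⟨hfin, ?_⟩
  rw [← Module.finrank_eq_rank] at hrank
  exact_mod_cast hrank

end Fermat.Agent.LocalRingP
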