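import Fermat.Agent.LocalRingP.Eigen
import Fermat.Agent.LocalRingP.Semilinear
import Mathlib.FieldTheory.Finiteness
import Mathlib.LinearAlgebra.Dual.Lemmas
import Mathlib.FieldTheory.IntermediateField.Adjoin.Basic

/-!
# Cocycles with a cyclotomic twist at a place over `p`

For `μ = ω t` with `ω` the mod `p` cyclotomic character and `t` unramified, the `μ`-cocycles on
the decomposition group vanishing at an element of inertia where `ω ≠ 1` form a space of
dimension at most `2`, and at most `1` when `t` is non-trivial at Frobenius (Kummer theory and the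
structure of the units of the unramified extensions).
-/

set_option autoImplicit false

noncomputable section

namespace Fermat.Agent.LocalRingP

local notation "Ω" => AlgebraicClosure ℚ
local notation "G_ℚ" => (AlgebraicClosure ℚ) ≃ₐ[ℚ] (AlgebraicClosure ℚ)

variable {A : ValuationSubring Ω} {k : Type} [Field k]

/-- Finite level cocycles for the character `μ` which vanish at `σ₀`. -/
def twistedSpace (μ : A.decompositionSubgroup ℚ → k) (σ₀ : A.decompositionSubgroup ℚ) :
    Submodule k (A.decompositionSubgroup ℚ → k) where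
  carrier := {b | (∀ g h, b (g * h) = b g + μ g * b h) ∧ FiniteLevel A 0 b ∧ b σ₀ = 0}
  zero_mem' := ⟨fun g h => by simp, ⟨⊥, inferInstance, fun _ _ => rfl⟩, rfl⟩
  add_mem' := by
    rintro a b ⟨ha, ⟨F, hF, haF⟩, ha0⟩ ⟨hb, ⟨F', hF', hbF⟩, hb0⟩
    refine ⟨fun g h => ?_, ⟨F ⊔ F', IntermediateField.finiteDimensional_sup F F', fun g hg => ?_⟩,
      by simp [ha0, hb0]⟩
    · simp only [Pi.add_apply, ha, hb]; ring
    · simp [haF g fun a h => hg a ((le_sup_left : F ≤ F ⊔ F') h),
        hbF g fun a h => hg a ((le_sup_right : F' ≤ F ⊔ F') h)]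
  smul_mem' := by
    rintro c a ⟨ha, ⟨F, hF, haF⟩, ha0⟩
    refine ⟨fun g h => ?_, ⟨F, hF, fun g hg => by simp [haF g hg]⟩, by simp [ha0]⟩
    simp only [Pi.smul_apply, smul_eq_mul, ha]; ring

variable {p : ℕ} [Fact p.Prime]

/-- The bound over a finite field. -/
theorem finrank_twistedSpace_le_of_finite [Finite k] [Algebra (ZMod p) k] (hp3 : 3 ≤ p)
    (hA : A.LiesOverPrime p) {ζ : Ω} (hζ : IsPrimitiveRoot ζ p)
    (ω : A.decompositionSubgroup ℚ →* ZMod p)
    (hω : ∀ g : A.decompositionSubgroup ℚ, (g : G_ℚ) ζ = ζ ^ (ω g).val)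
    (t : A.decompositionSubgroup ℚ →* k) (ht : FiniteLevel A 1 t)
    (htI : ∀ g : A.decompositionSubgroup ℚ, (g : G_ℚ) ∈ A.inertiaSubgroupIn ℚ → t g = 1)
    (φ : A.decompositionSubgroup ℚ) (hφ : A.IsFrobeniusAt (φ : G_ℚ) p)
    (σ₀ : A.decompositionSubgroup ℚ) (hσ₀ : (σ₀ : G_ℚ) ∈ A.inertiaSubgroupIn ℚ)
    (hωσ₀ : ω σ₀ ≠ 1) :
    FiniteDimensional k (twistedSpace (fun g => algebraMap (ZMod p) k (ω g) * t g) σ₀) ∧
      Module.finrank k (twistedSpace (fun g => algebraMap (ZMod p) k (ω g) * t g) σ₀) ≤ 2 ∧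
      (t φ ≠ 1 →
        Module.finrank k (twistedSpace (fun g => algebraMap (ZMod p) k (ω g) * t g) σ₀) ≤ 1) := by
  classical
  have hp : p.Prime := Fact.out
  have := Frobenius.residueField_charP hp hA
  let _ : Algebra (ZMod p) (IsLocalRing.ResidueField A) := ZMod.algebra _ p
  have htφ : t φ ≠ 0 := ((Group.isUnit φ).map t).ne_zero
  let K : KummerData A p :=
    { prime := hp
      three_le := hp3
      liesOver := hA
      ζ := ζ
      hζ := hζ
      ω := ω
      act := hω
      H := t.ker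
      inertia_le := fun g hg => MonoidHom.mem_ker.mpr (htI g hg)
      φ := φ
      frob := hφ
      conj := fun g hg => by
        have : t (φ⁻¹ * φ) = 1 := by rw [inv_mul_cancel, map_one]
        rw [MonoidHom.mem_ker] at hg ⊢
        rwa [map_mul, map_mul, hg, mul_one, ← map_mul]
      m := Nat.card k - 1
      m_pos := by have := Finite.one_lt_card (α := k); omega
      pow_mem := by
        let _ := Fintype.ofFinite k
        rw [MonoidHom.mem_ker, map_pow, Nat.card_eq_fintype_card]
        exact FiniteField.pow_card_sub_one_eq_one _ htφ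
      σ₀ := σ₀
      σ₀_mem := MonoidHom.mem_ker.mpr (htI σ₀ hσ₀)
      ω_σ₀ := hωσ₀ }
  set Z := twistedSpace (fun g => algebraMap (ZMod p) k (ω g) * t g) σ₀ with hZ
  have htwist : ∀ (b : Z) (l : Module.Dual (ZMod p) k),
      K.IsTwisted fun g => l ((b : A.decompositionSubgroup ℚ → k) g) := by
    rintro ⟨b, hb, ⟨L, hL, hbL⟩, -⟩ l
    obtain ⟨L', hL', htL⟩ := ht
    refine ⟨fun g hg h _ => ?_, L ⊔ L', IntermediateField.finiteDimensional_sup L L', fun g hg => ?_⟩
    · show l (b (g * h)) = l (b g) + ω g * l (b h)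
      rw [hb]
      dsimp only
      rw [MonoidHom.mem_ker.mp hg, mul_one, map_add, ← Algebra.smul_def, map_smul, smul_eq_mul]
    · refine ⟨MonoidHom.mem_ker.mpr (htL g fun a h => hg a ((le_sup_right : L' ≤ L ⊔ L') h)), ?_⟩
      show l (b g) = 0
      rw [hbL g fun a h => hg a ((le_sup_left : L ≤ L ⊔ L') h), map_zero]
  choose n y hny using fun b l => K.exists_hasCharClass (htwist b l)
  have hadd : ∀ (b : Z) (l l' : Module.Dual (ZMod p) k),
      n b (l + l') = n b l + n b l' ∧ y b (l + l') = y b l + y b l' := fun b l l' => by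
    have h1 := (hny b l).add (hny b l')
    exact (hny b (l + l')).unique (by simpa [Pi.add_def] using h1)
  let S : Module.Dual (ZMod p) k →ₗ[ZMod p] Module.Dual (ZMod p) k :=
    (LinearMap.mulLeft (ZMod p) (t φ)).dualMap
  have hfrob : ∀ (b : Z) (l : Module.Dual (ZMod p) k),
      n b l = n b (S l) ∧ y b l = y b (S l) ^ p := fun b l => by
    refine (hny b l).unique ((hny b (S l)).frobenius (l ((b : A.decompositionSubgroup ℚ → k) φ)) fun g hg => ?_)
    obtain ⟨b, hb, -, -⟩ := b
    show l (b g) = ω φ * l (t φ * b (φ⁻¹ * g * φ)) - (ω g - 1) * l (b φ)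
    have h1 := hb φ (φ⁻¹ * g * φ)
    rw [mul_assoc, mul_inv_cancel_left, hb g φ] at h1
    dsimp only at h1
    rw [MonoidHom.mem_ker.mp hg, mul_one, ← mul_assoc (φ⁻¹),
      mul_assoc (algebraMap (ZMod p) k (ω φ))] at h1
    have h2 := congrArg l h1
    rw [map_add, map_add, ← Algebra.smul_def, ← Algebra.smul_def, map_smul, map_smul,
      smul_eq_mul, smul_eq_mul] at h2
    linear_combination h2
  let Pn : Submodule (ZMod p) (Module.Dual (ZMod p) (Module.Dual (ZMod p) k)) :=
    { carrier := {f | ∀ l, f (S l) = f l}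
      zero_mem' := fun _ => rfl
      add_mem' := fun {f g} hf hg l => by simp [hf l, hg l]
      smul_mem' := fun c f hf l => by simp [hf l] }
  let Py : Submodule (ZMod p) (Module.Dual (ZMod p) k →ₗ[ZMod p] IsLocalRing.ResidueField A) :=
    { carrier := {X | ∀ l, X l = X (S l) ^ p}
      zero_mem' := fun _ => by simp [hp.ne_zero]
      add_mem' := fun {f g} hf hg l => by simp [hf l, hg l, add_pow_char]
      smul_mem' := fun c f hf l => by
        simp only [LinearMap.smul_apply, Algebra.smul_def, mul_pow]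
        rw [← map_pow, ZMod.pow_card, ← hf l] }
  let Φn : Z → Pn := fun b =>
    ⟨(AddMonoidHom.mk' (n b) fun l l' => (hadd b l l').1).toZModLinearMap p,
      fun l => ((hfrob b l).1).symm⟩
  let Φy : Z → Py := fun b =>
    ⟨(AddMonoidHom.mk' (y b) fun l l' => (hadd b l l').2).toZModLinearMap p,
      fun l => (hfrob b l).2⟩
  have hinj : Function.Injective fun b => (Φn b, Φy b) := by
    intro b b' hbb
    simp only [Prod.mk.injEq] at hbb
    refine sub_eq_zero.mp ?_
    set d : Z := b - b' with hd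
    obtain ⟨hd1, -, hd0⟩ := d.2
    have hzero : ∀ g ∈ K.H, (d : A.decompositionSubgroup ℚ → k) g = 0 := by
      intro g hg
      refine (Module.forall_dual_apply_eq_zero_iff (ZMod p) _).mp fun l => ?_
      have hn : n b l = n b' l := LinearMap.congr_fun (congrArg Subtype.val hbb.1) l
      have hy : y b l = y b' l := LinearMap.congr_fun (congrArg Subtype.val hbb.2) l
      have h1 := ((hny b' l).add (hny d l))
      have e : ((fun g => l ((b' : A.decompositionSubgroup ℚ → k) g)) + fun g => l ((d : A.decompositionSubgroup ℚ → k) g)) =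
          fun g => l ((b : A.decompositionSubgroup ℚ → k) g) := funext fun g => by simp [hd]
      rw [e] at h1
      obtain ⟨e1, e2⟩ := (hny b l).unique h1
      have h2 := hny d l
      rw [show n d l = 0 by simpa [hn] using e1.symm,
        show y d l = 0 by simpa [hy] using e2.symm] at h2
      exact K.eq_zero_of_hasCharClass (β := fun g => l ((d : A.decompositionSubgroup ℚ → k) g))
        (show l ((d : A.decompositionSubgroup ℚ → k) σ₀) = 0 by rw [hd0, map_zero]) h2 g hg
    refine Subtype.ext (funext fun g => ?_)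
    show (d : A.decompositionSubgroup ℚ → k) g = 0
    have hconj : g * σ₀ * g⁻¹ ∈ K.H := by
      refine MonoidHom.mem_ker.mpr ?_
      have h : t (g * g⁻¹) = 1 := by rw [mul_inv_cancel, map_one]
      rwa [map_mul, map_mul, htI σ₀ hσ₀, mul_one, ← map_mul]
    have h1 := hd1 (g * σ₀ * g⁻¹) g
    rw [inv_mul_cancel_right, hd1 g σ₀, hd0, mul_zero, add_zero, hzero _ hconj, zero_add] at h1
    have hωc : ω (g * σ₀ * g⁻¹) = ω σ₀ := by
      rw [map_mul, map_mul, mul_comm (ω g), mul_assoc, ← map_mul, mul_inv_cancel, map_one, mul_one]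
    dsimp only at h1
    rw [hωc, MonoidHom.mem_ker.mp hconj, mul_one] at h1
    by_contra hne
    exact hωσ₀ ((algebraMap (ZMod p) k).injective (by
      rw [map_one]; exact (mul_right_cancel₀ hne ((one_mul _).trans h1)).symm))
  have : Finite (Module.Dual (ZMod p) k) := Module.finite_of_finite (ZMod p)
  obtain ⟨hPy, hPy'⟩ := finrank_semilinear_le S Py fun X hX => hX
  have : Finite Py := Module.finite_of_finite (ZMod p)
  have : Finite Pn := Module.finite_of_finite (ZMod p)
  have : Finite Z := Finite.of_injective _ hinj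
  have hcard := Nat.card_le_card_of_injective _ hinj
  rw [Nat.card_prod] at hcard
  have hk : Nat.card k = p ^ Module.finrank (ZMod p) k := by
    rw [Module.natCard_eq_pow_finrank (K := ZMod p) (V := k), Nat.card_zmod]
  have hcy : Nat.card Py ≤ Nat.card k := by
    rw [Module.natCard_eq_pow_finrank (K := ZMod p) (V := Py), hk, Nat.card_zmod]
    refine Nat.pow_le_pow_right hp.pos ?_
    rwa [Subspace.dual_finrank_eq] at hPy'
  have hcn : Nat.card Pn ≤ Nat.card k := by
    rw [Module.natCard_eq_pow_finrank (K := ZMod p) (V := Pn), hk, Nat.card_zmod]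
    refine Nat.pow_le_pow_right hp.pos ((Submodule.finrank_le Pn).trans ?_)
    rw [Subspace.dual_finrank_eq, Subspace.dual_finrank_eq]
  have hq : 1 < Nat.card k := Finite.one_lt_card
  have hfin : FiniteDimensional k Z := Module.Finite.of_finite
  refine ⟨hfin, ?_, fun hne => ?_⟩
  · refine (Nat.pow_le_pow_iff_right hq).mp ?_
    rw [← Module.natCard_eq_pow_finrank, sq]
    exact hcard.trans (Nat.mul_le_mul hcn hcy)
  · have : Subsingleton Pn := ⟨fun f f' => by
      refine Subtype.ext (LinearMap.ext fun l => ?_)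
      let ν : Module.Dual (ZMod p) k := l ∘ₗ LinearMap.mulLeft (ZMod p) (t φ - 1)⁻¹
      have hν : S ν - ν = l := LinearMap.ext fun x => by
        show l ((t φ - 1)⁻¹ * (t φ * x)) - l ((t φ - 1)⁻¹ * x) = l x
        rw [← map_sub, ← mul_sub, show t φ * x - x = (t φ - 1) * x by ring, ← mul_assoc,
          inv_mul_cancel₀ (sub_ne_zero.mpr hne), one_mul]
      rw [← hν, map_sub, map_sub, f.2 ν, f'.2 ν, sub_self, sub_self]⟩
    refine (Nat.pow_le_pow_iff_right hq).mp ?_
    rw [← Module.natCard_eq_pow_finrank, pow_one]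
    refine hcard.trans ?_
    rw [Nat.card_unique, one_mul]
    exact hcy

/-- **The bound for twisted cocycles.** -/
theorem finrank_twistedSpace_le [Algebra (ZMod p) k] (hp3 : 3 ≤ p) (hA : A.LiesOverPrime p)
    {ζ : Ω} (hζ : IsPrimitiveRoot ζ p)
    (ω : A.decompositionSubgroup ℚ →* ZMod p)
    (hω : ∀ g : A.decompositionSubgroup ℚ, (g : G_ℚ) ζ = ζ ^ (ω g).val)
    (t : A.decompositionSubgroup ℚ →* k) (ht : FiniteLevel A 1 t)
    (htI : ∀ g : A.decompositionSubgroup ℚ, (g : G_ℚ) ∈ A.inertiaSubgroupIn ℚ → t g = 1)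
    (φ : A.decompositionSubgroup ℚ) (hφ : A.IsFrobeniusAt (φ : G_ℚ) p)
    (σ₀ : A.decompositionSubgroup ℚ) (hσ₀ : (σ₀ : G_ℚ) ∈ A.inertiaSubgroupIn ℚ)
    (hωσ₀ : ω σ₀ ≠ 1) :
    FiniteDimensional k (twistedSpace (fun g => algebraMap (ZMod p) k (ω g) * t g) σ₀) ∧
      Module.finrank k (twistedSpace (fun g => algebraMap (ZMod p) k (ω g) * t g) σ₀) ≤ 2 ∧
      (t φ ≠ 1 →
        Module.finrank k (twistedSpace (fun g => algebraMap (ZMod p) k (ω g) * t g) σ₀) ≤ 1) := by
  classical
  have hp : p.Prime := Fact.out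
  -- the twist takes values in a finite field
  obtain ⟨m, hm0, hm⟩ : ∃ m, 0 < m ∧ t φ ^ m = 1 := by
    obtain ⟨L, hL, htL⟩ := ht
    obtain ⟨F, hLF, hF, hFg⟩ := exists_galois_level L
    let R : A.decompositionSubgroup ℚ →* (F ≃ₐ[ℚ] F) :=
      (AlgEquiv.restrictNormalHom F).comp (A.decompositionSubgroup ℚ).subtype
    refine ⟨orderOf (R φ), orderOf_pos _, ?_⟩
    rw [← map_pow]
    refine htL _ fun a ha => ?_
    have h1 : R (φ ^ orderOf (R φ)) = 1 := by rw [map_pow, pow_orderOf_eq_one]
    have h2 : ((R (φ ^ orderOf (R φ)) ⟨a, hLF ha⟩ : F) : Ω) =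
        ((φ ^ orderOf (R φ) : A.decompositionSubgroup ℚ) : G_ℚ) a :=
      AlgEquiv.restrictNormal_commutes _ F ⟨a, hLF ha⟩
    rw [h1] at h2
    exact h2.symm
  let k₀ : IntermediateField (ZMod p) k := IntermediateField.adjoin (ZMod p) {t φ}
  have : FiniteDimensional (ZMod p) k₀ :=
    IntermediateField.adjoin.finiteDimensional ⟨Polynomial.X ^ m - 1,
      Polynomial.monic_X_pow_sub_C 1 hm0.ne', by simp [hm]⟩
  have : Finite k₀ := Module.finite_of_finite (ZMod p)
  have htmem : ∀ g, t g ∈ k₀ := fun g => by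
    obtain ⟨n, hn⟩ := exists_eq_pow_of_trivial_on_inertia hp hA φ hφ t ht htI g
    rw [hn]
    exact pow_mem (IntermediateField.mem_adjoin_simple_self _ _) n
  let t₀ : A.decompositionSubgroup ℚ →* k₀ :=
    { toFun := fun g => ⟨t g, htmem g⟩
      map_one' := Subtype.ext (map_one t)
      map_mul' := fun a b => Subtype.ext (map_mul t a b) }
  have ht₀ : FiniteLevel A 1 t₀ := by
    obtain ⟨L, hL, htL⟩ := ht
    exact ⟨L, hL, fun g hg => Subtype.ext (htL g hg)⟩
  obtain ⟨hfin, hle2, hle1⟩ := finrank_twistedSpace_le_of_finite hp3 hA hζ ω hω t₀ ht₀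
    (fun g hg => Subtype.ext (htI g hg)) φ hφ σ₀ hσ₀ hωσ₀
  set μ := fun g => algebraMap (ZMod p) k (ω g) * t g with hμ
  set μ₀ : A.decompositionSubgroup ℚ → k₀ := fun g => algebraMap (ZMod p) k₀ (ω g) * t₀ g with hμ₀
  have hμμ : ∀ g, μ g = ((μ₀ g : k₀) : k) := fun g => rfl
  let bs := Module.finBasis k₀ (twistedSpace μ₀ σ₀)
  let v : Fin (Module.finrank k₀ (twistedSpace μ₀ σ₀)) → A.decompositionSubgroup ℚ → k :=
    fun i g => (((bs i : _ → k₀) g : k₀) : k)
  have hspan : twistedSpace μ σ₀ ≤ Submodule.span k (Set.range v) := by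
    rintro b ⟨hb, ⟨L, hL, hbL⟩, hb0⟩
    obtain ⟨F, hLF, hF, hFg⟩ := exists_galois_level L
    have hrange : (Set.range b).Finite := by
      let R : A.decompositionSubgroup ℚ →* (F ≃ₐ[ℚ] F) :=
        (AlgEquiv.restrictNormalHom F).comp (A.decompositionSubgroup ℚ).subtype
      have hfac : ∀ g h, R g = R h → b g = b h := fun g h hgh => by
        have h1 : b (g⁻¹ * h) = 0 := hbL _ fun a ha => by
          have e : ((R (g⁻¹ * h) ⟨a, hLF ha⟩ : F) : Ω) =
              ((g⁻¹ * h : A.decompositionSubgroup ℚ) : G_ℚ) a :=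
            AlgEquiv.restrictNormal_commutes _ F ⟨a, hLF ha⟩
          rw [map_mul, map_inv, hgh, inv_mul_cancel] at e
          exact e.symm
        have h2 := hb g (g⁻¹ * h)
        rw [mul_inv_cancel_left, h1, mul_zero, add_zero] at h2
        exact h2.symm
      refine (Set.finite_range fun γ : Set.range R => b γ.2.choose).subset ?_
      rintro _ ⟨g, rfl⟩
      exact ⟨⟨R g, g, rfl⟩, hfac _ _ (Exists.choose_spec (⟨g, rfl⟩ : ∃ x, R x = R g))⟩
    let B := Module.Basis.ofVectorSpace k₀ k
    let J := hrange.toFinset.biUnion fun x => (B.repr x).support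
    have hcoord : ∀ j, (fun g => B.repr (b g) j) ∈ twistedSpace μ₀ σ₀ := fun j => by
      refine ⟨fun g h => ?_, ⟨L, hL, fun g hg => by simp [hbL g hg]⟩, by simp [hb0]⟩
      show B.repr (b (g * h)) j = B.repr (b g) j + μ₀ g * B.repr (b h) j
      rw [hb, show μ g * b h = μ₀ g • b h by rw [Algebra.smul_def]; rfl, map_add, map_smul]
      rfl
    have hdec : b = ∑ j ∈ J, (B j) • fun g => ((B.repr (b g) j : k₀) : k) := by
      funext g
      simp only [Finset.sum_apply, Pi.smul_apply, smul_eq_mul]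
      conv_lhs => rw [← B.linearCombination_repr (b g), Finsupp.linearCombination_apply]
      rw [Finsupp.sum_of_support_subset _ (Finset.subset_biUnion_of_mem
        (fun x => (B.repr x).support) (hrange.mem_toFinset.mpr ⟨g, rfl⟩)) _ (by simp)]
      exact Finset.sum_congr rfl fun j _ => by rw [Algebra.smul_def, mul_comm]; rfl
    rw [hdec]
    refine Submodule.sum_mem _ fun j _ => Submodule.smul_mem _ _ ?_
    have hrepr := bs.sum_repr ⟨_, hcoord j⟩
    have : (fun g => ((B.repr (b g) j : k₀) : k)) =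
        ∑ i, ((bs.repr ⟨_, hcoord j⟩ i : k₀) : k) • v i := by
      funext g
      have h := (congrArg (fun x : k₀ => (x : k))
        (congrFun (congrArg Subtype.val hrepr) g)).symm
      simp only [Submodule.coe_smul, Finset.sum_apply, Pi.smul_apply,
        smul_eq_mul, AddSubmonoidClass.coe_finsetSum, MulMemClass.coe_mul] at h
      simpa only [v, Finset.sum_apply, Pi.smul_apply, smul_eq_mul] using h
    rw [this]
    exact Submodule.sum_mem _ fun i _ => Submodule.smul_mem _ _ (Submodule.subset_span ⟨i, rfl⟩)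
  have : FiniteDimensional k (Submodule.span k (Set.range v)) :=
    FiniteDimensional.span_of_finite k (Set.finite_range v)
  have hle : Module.finrank k (twistedSpace μ σ₀) ≤ Module.finrank k₀ (twistedSpace μ₀ σ₀) :=
    (Submodule.finrank_mono hspan).trans ((finrank_range_le_card v).trans (by simp))
  exact ⟨Submodule.finiteDimensional_of_le hspan, hle.trans hle2,
    fun hne => hle.trans (hle1 fun e => hne (congrArg Subtype.val e))⟩

end Fermat.Agent.LocalRingP
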