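import Fermat.Agent.LocalRingP.KummerBound

/-!
# Tangent spaces of the ordinary and strict conditions at `p`

`condSpace` is the space of trace zero cocycles on the decomposition group satisfying the first
order equations `(σ - χ' σ) (τ - γ τ) = 0` on a set `S`.  In a basis where a chosen element of
inertia is `diag (w, 1)`, `w ≠ 1`, its dimension is bounded by counting the entries.
-/

set_option autoImplicit false

noncomputable section

namespace Fermat.Agent.LocalRingP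

local notation "Ω" => AlgebraicClosure ℚ
local notation "G_ℚ" => (AlgebraicClosure ℚ) ≃ₐ[ℚ] (AlgebraicClosure ℚ)

variable {A : ValuationSubring Ω} {k : Type} [Field k]

/-- The first order equation at `(σ, τ)`. -/
def condEq (ρ : A.decompositionSubgroup ℚ →* Matrix (Fin 2) (Fin 2) k)
    (γ χ' : A.decompositionSubgroup ℚ → k)
    (c : A.decompositionSubgroup ℚ → Matrix (Fin 2) (Fin 2) k)
    (σ τ : A.decompositionSubgroup ℚ) : Matrix (Fin 2) (Fin 2) k :=
  c σ * ρ σ * (ρ τ - γ τ • 1) + (ρ σ - χ' σ • 1) * (c τ * ρ τ)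

/-- Trace zero cocycles of finite level satisfying the first order equations on `S`. -/
def condSpace (ρ : A.decompositionSubgroup ℚ →* Matrix (Fin 2) (Fin 2) k)
    (S : Set (A.decompositionSubgroup ℚ)) (γ χ' : A.decompositionSubgroup ℚ → k) :
    Submodule k (A.decompositionSubgroup ℚ → Matrix (Fin 2) (Fin 2) k) where
  carrier := {c | (∀ g h, c (g * h) = c g + ρ g * c h * ρ g⁻¹) ∧ (∀ g, (c g).trace = 0) ∧
    FiniteLevel A 0 c ∧ ∀ σ ∈ S, ∀ τ ∈ S, condEq ρ γ χ' c σ τ = 0}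
  zero_mem' := ⟨fun g h => by simp, fun g => by simp, ⟨⊥, inferInstance, fun _ _ => rfl⟩,
    fun σ _ τ _ => by simp [condEq]⟩
  add_mem' := by
    rintro a b ⟨ha1, ha2, ⟨F, hF, haF⟩, ha4⟩ ⟨hb1, hb2, ⟨F', hF', hbF⟩, hb4⟩
    refine ⟨fun g h => ?_, fun g => by simp [ha2, hb2],
      ⟨F ⊔ F', IntermediateField.finiteDimensional_sup F F', fun g hg => ?_⟩, fun σ hσ τ hτ => ?_⟩
    · simp only [Pi.add_apply, ha1, hb1, Matrix.mul_add, Matrix.add_mul]; abel
    · simp [haF g fun a h => hg a ((le_sup_left : F ≤ F ⊔ F') h),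
        hbF g fun a h => hg a ((le_sup_right : F' ≤ F ⊔ F') h)]
    · have e : condEq ρ γ χ' (a + b) σ τ = condEq ρ γ χ' a σ τ + condEq ρ γ χ' b σ τ := by
        simp only [condEq, Pi.add_apply, Matrix.add_mul, Matrix.mul_add]; abel
      rw [e, ha4 σ hσ τ hτ, hb4 σ hσ τ hτ, add_zero]
  smul_mem' := by
    rintro t a ⟨ha1, ha2, ⟨F, hF, haF⟩, ha4⟩
    refine ⟨fun g h => ?_, fun g => by simp [ha2], ⟨F, hF, fun g hg => by simp [haF g hg]⟩,
      fun σ hσ τ hτ => ?_⟩
    · simp [ha1, smul_add]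
    · have e : condEq ρ γ χ' (t • a) σ τ = t • condEq ρ γ χ' a σ τ := by
        simp only [condEq, Pi.smul_apply, Matrix.smul_mul, Matrix.mul_smul, smul_add]
      rw [e, ha4 σ hσ τ hτ, smul_zero]

variable {ρ : A.decompositionSubgroup ℚ →* Matrix (Fin 2) (Fin 2) k}

lemma rho_mul_inv (g : A.decompositionSubgroup ℚ) : ρ g * ρ g⁻¹ = 1 := by
  rw [← map_mul, mul_inv_cancel, map_one]

lemma rho_inv_mul (g : A.decompositionSubgroup ℚ) : ρ g⁻¹ * ρ g = 1 := by
  rw [← map_mul, inv_mul_cancel, map_one]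

/-- The coboundaries satisfy the equations. -/
lemma coboundary_mem_condSpace {S : Set (A.decompositionSubgroup ℚ)}
    {γ χ' : A.decompositionSubgroup ℚ → k} (hρ : FiniteLevel A 1 ρ)
    (hres : ∀ σ ∈ S, ∀ τ ∈ S, (ρ σ - χ' σ • 1) * (ρ τ - γ τ • 1) = 0)
    (X : Matrix (Fin 2) (Fin 2) k) :
    (fun g => ρ g * X * ρ g⁻¹ - X) ∈ condSpace ρ S γ χ' := by
  refine ⟨fun g h => ?_, fun g => ?_, ?_, fun σ hσ τ hτ => ?_⟩
  · show ρ (g * h) * X * ρ (g * h)⁻¹ - X =
      ρ g * X * ρ g⁻¹ - X + ρ g * (ρ h * X * ρ h⁻¹ - X) * ρ g⁻¹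
    rw [map_mul, mul_inv_rev, map_mul]
    noncomm_ring
  · rw [Matrix.trace_sub, Matrix.trace_mul_cycle, rho_inv_mul, one_mul, sub_self]
  · obtain ⟨L, hL, hρL⟩ := hρ
    refine ⟨L, hL, fun g hg => ?_⟩
    have h2 : ρ g⁻¹ = 1 := by
      have := rho_inv_mul (ρ := ρ) g
      rwa [hρL g hg, mul_one] at this
    show ρ g * X * ρ g⁻¹ - X = 0
    rw [hρL g hg, h2, one_mul, mul_one, sub_self]
  · have e : ∀ g, (ρ g * X * ρ g⁻¹ - X) * ρ g = ρ g * X - X * ρ g := fun g => by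
      rw [sub_mul, mul_assoc, rho_inv_mul, mul_one]
    have h0 := hres σ hσ τ hτ
    unfold condEq
    rw [e, e]
    calc (ρ σ * X - X * ρ σ) * (ρ τ - γ τ • 1) + (ρ σ - χ' σ • 1) * (ρ τ * X - X * ρ τ)
        = (ρ σ - χ' σ • 1) * (ρ τ - γ τ • 1) * X - X * ((ρ σ - χ' σ • 1) * (ρ τ - γ τ • 1)) := by
          simp only [Matrix.sub_mul, Matrix.mul_sub, Matrix.smul_mul, Matrix.mul_smul, one_mul,
            mul_one, smul_sub, smul_smul, mul_assoc]
          module
      _ = 0 := by rw [h0, zero_mul, mul_zero, sub_zero]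

/-- An additive map of finite level trivial on inertia is determined by Frobenius. -/
lemma eq_zero_of_trivial_on_inertia {p : ℕ} (hp : p.Prime) (hA : A.LiesOverPrime p)
    (φ : A.decompositionSubgroup ℚ) (hφ : A.IsFrobeniusAt (φ : G_ℚ) p)
    (f : A.decompositionSubgroup ℚ → k) (hadd : ∀ g h, f (g * h) = f g + f h)
    (hf : FiniteLevel A 0 f)
    (hI : ∀ g : A.decompositionSubgroup ℚ, (g : G_ℚ) ∈ A.inertiaSubgroupIn ℚ → f g = 0)
    (hφ0 : f φ = 0) (g : A.decompositionSubgroup ℚ) : f g = 0 := by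
  have h1 : f 1 = 0 := by simpa using hadd 1 1
  let F : A.decompositionSubgroup ℚ →* Multiplicative k :=
    { toFun := fun g => Multiplicative.ofAdd (f g)
      map_one' := by rw [h1, ofAdd_zero]
      map_mul' := fun a b => by rw [hadd, ofAdd_add] }
  obtain ⟨n, hn⟩ := exists_eq_pow_of_trivial_on_inertia hp hA φ hφ F
    (hf.imp fun L h => ⟨h.1, fun g hg => congrArg Multiplicative.ofAdd (h.2 g hg)⟩)
    (fun g hg => congrArg Multiplicative.ofAdd (hI g hg)) g
  have h2 : F φ = 1 := congrArg Multiplicative.ofAdd hφ0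
  rw [h2, one_pow] at hn
  exact congrArg Multiplicative.toAdd hn

variable {p : ℕ} [Fact p.Prime] [Algebra (ZMod p) k]

/-- The hypotheses in an adapted basis. -/
structure Adapted (ρ : A.decompositionSubgroup ℚ →* Matrix (Fin 2) (Fin 2) k)
    (ω : A.decompositionSubgroup ℚ →* ZMod p) (σ₀ : A.decompositionSubgroup ℚ) : Prop where
  mem : (σ₀ : AlgebraicClosure ℚ ≃ₐ[ℚ] AlgebraicClosure ℚ) ∈ A.inertiaSubgroupIn ℚ
  ne : ω σ₀ ≠ 1
  diag : ρ σ₀ = !![algebraMap (ZMod p) k (ω σ₀), 0; 0, 1]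
  tri : ∀ g, ρ g 1 0 = 0
  unit : ∀ g : A.decompositionSubgroup ℚ,
    (g : AlgebraicClosure ℚ ≃ₐ[ℚ] AlgebraicClosure ℚ) ∈ A.inertiaSubgroupIn ℚ → ρ g 1 1 = 1
  det : ∀ g, ρ g 0 0 * ρ g 1 1 = algebraMap (ZMod p) k (ω g)
  level : FiniteLevel A 1 ρ

namespace Adapted

variable {ω : A.decompositionSubgroup ℚ →* ZMod p} {σ₀ : A.decompositionSubgroup ℚ}

lemma inv00 (h : Adapted ρ ω σ₀) (g : A.decompositionSubgroup ℚ) :
    ρ g 0 0 * ρ g⁻¹ 0 0 = 1 := by
  have := congrFun (congrFun (rho_mul_inv (ρ := ρ) g) 0) 0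
  simpa [Matrix.mul_apply, Fin.sum_univ_two, h.tri g⁻¹] using this

lemma inv11 (h : Adapted ρ ω σ₀) (g : A.decompositionSubgroup ℚ) :
    ρ g 1 1 * ρ g⁻¹ 1 1 = 1 := by
  have := congrFun (congrFun (rho_mul_inv (ρ := ρ) g) 1) 1
  simpa [Matrix.mul_apply, Fin.sum_univ_two, h.tri g] using this

/-- The square inverse of the lower character. -/
def twist (h : Adapted ρ ω σ₀) : A.decompositionSubgroup ℚ →* k where
  toFun g := ρ g⁻¹ 1 1 ^ 2
  map_one' := by simp
  map_mul' a b := by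
    rw [mul_inv_rev, map_mul, Matrix.mul_apply, Fin.sum_univ_two, h.tri, zero_mul, zero_add,
      mul_pow, mul_comm]

lemma twist_level (h : Adapted ρ ω σ₀) : FiniteLevel A 1 h.twist := by
  obtain ⟨L, hL, hρL⟩ := h.level
  refine ⟨L, hL, fun g hg => ?_⟩
  have := h.inv11 g
  rw [hρL g hg, Matrix.one_apply_eq, one_mul] at this
  show ρ g⁻¹ 1 1 ^ 2 = 1
  rw [this, one_pow]

lemma twist_inertia (h : Adapted ρ ω σ₀) (g : A.decompositionSubgroup ℚ)
    (hg : (g : G_ℚ) ∈ A.inertiaSubgroupIn ℚ) : h.twist g = 1 := by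
  show ρ g⁻¹ 1 1 ^ 2 = 1
  rw [h.unit g⁻¹ (by simpa using (A.inertiaSubgroupIn ℚ).inv_mem hg), one_pow]

end Adapted

variable {ζ : Ω} {ω : A.decompositionSubgroup ℚ →* ZMod p}
  {σ₀ φ : A.decompositionSubgroup ℚ} {S : Set (A.decompositionSubgroup ℚ)}
  {γ χ' : A.decompositionSubgroup ℚ → k}

/-- Three coordinates of a cocycle. -/
def coords (e : k) (σ₀ φ : A.decompositionSubgroup ℚ) :
    (A.decompositionSubgroup ℚ → Matrix (Fin 2) (Fin 2) k) →ₗ[k] (Fin 3 → k) where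
  toFun c := ![c σ₀ 0 1, c σ₀ 1 0, e * c φ 0 0]
  map_add' c c' := by
    funext i; fin_cases i <;> simp [mul_add]
  map_smul' t c := by
    funext i; fin_cases i <;> simp [mul_left_comm]

lemma conj_mem_inertiaSubgroupIn {g σ : A.decompositionSubgroup ℚ}
    (hσ : (σ : G_ℚ) ∈ A.inertiaSubgroupIn ℚ) :
    ((g * σ * g⁻¹ : A.decompositionSubgroup ℚ) : G_ℚ) ∈ A.inertiaSubgroupIn ℚ := by
  obtain ⟨σ', hσ', he⟩ := hσ
  obtain rfl : σ' = σ := Subtype.ext he
  exact ⟨g * σ' * g⁻¹, (MonoidHom.normal_ker _).conj_mem σ' hσ' g, rfl⟩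

/-- An element of the kernel of the coordinates is concentrated in the upper right entry. -/
theorem entries_of_coords_eq_zero (hA : A.LiesOverPrime p) (h : Adapted ρ ω σ₀)
    (hφ : A.IsFrobeniusAt (φ : G_ℚ) p) (hσ₀S : σ₀ ∈ S)
    (hI : ∀ g : A.decompositionSubgroup ℚ, (g : G_ℚ) ∈ A.inertiaSubgroupIn ℚ → g ∈ S)
    (hγ : γ σ₀ = 1) (hχ' : χ' σ₀ = algebraMap (ZMod p) k (ω σ₀))
    (c : A.decompositionSubgroup ℚ → Matrix (Fin 2) (Fin 2) k) (hc : c ∈ condSpace ρ S γ χ')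
    {e : k} (he : e ≠ 0 ∨ S = Set.univ) (h0 : coords e σ₀ φ c = 0) :
    c σ₀ = 0 ∧ ∀ g, c g 0 0 = 0 ∧ c g 1 0 = 0 ∧ c g 1 1 = 0 := by
  obtain ⟨hmul, htr, hlev, heq⟩ := hc
  set w := algebraMap (ZMod p) k (ω σ₀) with hw
  have hw0 : w ≠ 0 := fun e0 => by
    have := h.inv00 σ₀
    rw [h.diag] at this
    rw [hw] at e0
    simp [e0] at this
  have hw1 : w ≠ 1 := fun e1 => h.ne ((algebraMap (ZMod p) k).injective (e1.trans (map_one _).symm))
  have h01 : c σ₀ 0 1 = 0 := by simpa [coords] using congrFun h0 0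
  have h10 : c σ₀ 1 0 = 0 := by simpa [coords] using congrFun h0 1
  have htr2 : ∀ g, c g 0 0 + c g 1 1 = 0 := fun g => by
    simpa [Matrix.trace, Fin.sum_univ_two] using htr g
  have hc0 : c σ₀ = 0 := by
    have e1 := congrFun (congrFun (heq σ₀ hσ₀S σ₀ hσ₀S) 0) 0
    simp [condEq, h.diag, hγ, hχ', Matrix.mul_apply, Fin.sum_univ_two, h01] at e1
    have e2 : c σ₀ 0 0 = 0 := by
      refine (mul_eq_zero.mp (?_ : c σ₀ 0 0 * (w * (w - 1)) = 0)).resolve_right
        (mul_ne_zero hw0 (sub_ne_zero.mpr hw1))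
      rw [hw] at e1 ⊢
      linear_combination e1
    ext i j
    fin_cases i <;> fin_cases j <;> simp [e2, h01, h10]
    simpa [e2] using htr2 σ₀
  -- the lower row vanishes on `S`
  have hrow : ∀ τ ∈ S, c τ 1 0 = 0 ∧ c τ 1 1 = 0 := by
    intro τ hτ
    have e1 := heq σ₀ hσ₀S τ hτ
    rw [condEq, hc0, zero_mul, zero_mul, zero_add, hχ', h.diag] at e1
    have e2 : (!![w, 0; 0, 1] - w • (1 : Matrix (Fin 2) (Fin 2) k)) * c τ = 0 := by
      have := congrArg (fun M => M * ρ τ⁻¹) e1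
      simpa only [zero_mul, mul_assoc, rho_mul_inv, mul_one] using this
    have hne : (1 : k) - w ≠ 0 := sub_ne_zero.mpr (Ne.symm hw1)
    constructor
    · simpa [Matrix.mul_apply, Fin.sum_univ_two, hne] using congrFun (congrFun e2 1) 0
    · simpa [Matrix.mul_apply, Fin.sum_univ_two, hne] using congrFun (congrFun e2 1) 1
  have hlow : ∀ g, c g 1 0 = 0 := by
    intro g
    have hτ := conj_mem_inertiaSubgroupIn (g := g) h.mem
    set τ := g * σ₀ * g⁻¹ with hτdef
    have e1 : c (g * σ₀) = c g := by rw [hmul, hc0, mul_zero, zero_mul, add_zero]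
    have e2 : g * σ₀ = τ * g := by rw [hτdef, inv_mul_cancel_right]
    rw [e2, hmul] at e1
    have e3 := congrFun (congrFun e1 1) 0
    have hu := h.unit τ hτ
    have hωτ : ω τ = ω σ₀ := by
      rw [hτdef, map_mul, map_mul, mul_comm (ω g), mul_assoc, ← map_mul, mul_inv_cancel, map_one,
        mul_one]
    have h00 : ρ τ 0 0 = w := by
      have := h.det τ
      rwa [hu, mul_one, hωτ] at this
    have hinv : ρ τ⁻¹ 0 0 = w⁻¹ := eq_inv_of_mul_eq_one_left (by
      rw [mul_comm, ← h00]; exact h.inv00 τ)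
    simp [Matrix.mul_apply, Fin.sum_univ_two, h.tri, (hrow τ (hI τ hτ)).1, hu, hinv] at e3
    by_contra hne
    exact hw1 (inv_eq_one.mp (mul_right_eq_self₀.mp e3 |>.resolve_right hne))
  have hadd : ∀ g g', c (g * g') 0 0 = c g 0 0 + c g' 0 0 := fun g g' => by
    rw [hmul, Matrix.add_apply]
    congr 1
    have := h.inv00 g
    simp [Matrix.mul_apply, Fin.sum_univ_two, h.tri, hlow]
    linear_combination c g' 0 0 * this
  have ha : ∀ g, c g 0 0 = 0 := by
    intro g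
    have hS : ∀ g ∈ S, c g 0 0 = 0 := fun g hg => by
      have := htr2 g
      rwa [(hrow g hg).2, add_zero] at this
    rcases he with he | he
    · refine eq_zero_of_trivial_on_inertia Fact.out hA φ hφ (fun g => c g 0 0) hadd
        (hlev.imp fun L hL => ⟨hL.1, fun g hg => by show c g 0 0 = 0; rw [hL.2 g hg]; rfl⟩) (fun g hg => hS g (hI g hg))
        ?_ g
      simpa [coords, he] using congrFun h0 2
    · exact hS g (he ▸ Set.mem_univ g)
  refine ⟨hc0, fun g => ⟨ha g, hlow g, ?_⟩⟩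
  simpa [ha g] using htr2 g

/-- The bound in an adapted basis: three coordinates and a twisted cocycle. -/
theorem finrank_condSpace_le (hp3 : 3 ≤ p) (hA : A.LiesOverPrime p) (hζ : IsPrimitiveRoot ζ p)
    (hω : ∀ g : A.decompositionSubgroup ℚ, (g : G_ℚ) ζ = ζ ^ (ω g).val)
    (h : Adapted ρ ω σ₀) (hφ : A.IsFrobeniusAt (φ : G_ℚ) p) (hσ₀S : σ₀ ∈ S)
    (hI : ∀ g : A.decompositionSubgroup ℚ, (g : G_ℚ) ∈ A.inertiaSubgroupIn ℚ → g ∈ S)
    (hγ : γ σ₀ = 1) (hχ' : χ' σ₀ = algebraMap (ZMod p) k (ω σ₀)) :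
    FiniteDimensional k (condSpace ρ S γ χ') ∧
      Module.finrank k (condSpace ρ S γ χ') ≤ 5 ∧
      (h.twist φ ≠ 1 ∨ S = Set.univ → Module.finrank k (condSpace ρ S γ χ') ≤ 4) := by
  classical
  obtain ⟨hTfin, hT2, hT1⟩ := finrank_twistedSpace_le hp3 hA hζ ω hω h.twist h.twist_level
    h.twist_inertia φ hφ σ₀ h.mem h.ne
  set T := twistedSpace (fun g => algebraMap (ZMod p) k (ω g) * h.twist g) σ₀
  let e : k := if S = Set.univ then 0 else 1
  have he : e ≠ 0 ∨ S = Set.univ := by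
    by_cases hS : S = Set.univ
    · exact Or.inr hS
    · exact Or.inl (by simp [e, hS])
  let f : condSpace ρ S γ χ' →ₗ[k] (Fin 3 → k) := (coords e σ₀ φ).domRestrict _
  have hker : ∀ c : LinearMap.ker f,
      (fun g => ((c : condSpace ρ S γ χ') : A.decompositionSubgroup ℚ → Matrix (Fin 2) (Fin 2) k) g 0 1) ∈ T := by
    rintro ⟨⟨c, hc⟩, hc0⟩
    obtain ⟨h0, hent⟩ := entries_of_coords_eq_zero hA h hφ hσ₀S hI hγ hχ' c hc he hc0
    obtain ⟨hmul, -, hlev, -⟩ := hc
    refine ⟨fun g g' => ?_, hlev.imp fun L hL => ⟨hL.1, fun g hg => ?_⟩, by simp [h0]⟩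
    · show c (g * g') 0 1 = c g 0 1 + algebraMap (ZMod p) k (ω g) * ρ g⁻¹ 1 1 ^ 2 * c g' 0 1
      rw [hmul, Matrix.add_apply, ← h.det g]
      have := h.inv11 g
      simp [Matrix.mul_apply, Fin.sum_univ_two, hent g']
      linear_combination (-(ρ g 0 0) * c g' 0 1 * ρ g⁻¹ 1 1) * this
    · show c g 0 1 = 0
      rw [hL.2 g hg]; rfl
  let ψ : LinearMap.ker f →ₗ[k] T :=
    { toFun := fun c => ⟨_, hker c⟩
      map_add' := fun _ _ => rfl
      map_smul' := fun _ _ => rfl }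
  have hψ : Function.Injective ψ := by
    rintro ⟨⟨c, hc⟩, hc0⟩ ⟨⟨c', hc'⟩, hc0'⟩ hcc
    obtain ⟨-, hent⟩ := entries_of_coords_eq_zero hA h hφ hσ₀S hI hγ hχ' c hc he hc0
    obtain ⟨-, hent'⟩ := entries_of_coords_eq_zero hA h hφ hσ₀S hI hγ hχ' c' hc' he hc0'
    refine Subtype.ext (Subtype.ext (funext fun g => ?_))
    have h01 : c g 0 1 = c' g 0 1 := congrFun (congrArg Subtype.val hcc) g
    show c g = c' g
    ext i j
    fin_cases i <;> fin_cases j <;> simp [h01, hent g, hent' g]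
  have hKfin : Module.Finite k (LinearMap.ker f) := Module.Finite.of_injective ψ hψ
  have hQfin : Module.Finite k (condSpace ρ S γ χ' ⧸ LinearMap.ker f) :=
    Module.Finite.equiv f.quotKerEquivRange.symm
  have hfin : FiniteDimensional k (condSpace ρ S γ χ') :=
    Module.Finite.of_submodule_quotient (LinearMap.ker f)
  have hsum := LinearMap.finrank_range_add_finrank_ker f
  have hK := LinearMap.finrank_le_finrank_of_injective hψ
  have hR : Module.finrank k (LinearMap.range f) ≤ 3 :=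
    (Submodule.finrank_le _).trans (by simp)
  refine ⟨hfin, by omega, fun hor => ?_⟩
  by_cases hS : S = Set.univ
  · have hR2 : Module.finrank k (LinearMap.range f) ≤ 2 := by
      have hle : LinearMap.range f ≤ LinearMap.ker (LinearMap.proj (R := k) (φ := fun _ : Fin 3 => k) 2) := by
        rintro _ ⟨c, rfl⟩
        simp [f, coords, e, hS]
      refine (Submodule.finrank_mono hle).trans ?_
      have h1 := LinearMap.finrank_range_add_finrank_ker
        (LinearMap.proj (R := k) (φ := fun _ : Fin 3 => k) 2)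
      rw [LinearMap.range_eq_top.mpr (LinearMap.proj_surjective 2), finrank_top, Module.finrank_self,
        Module.finrank_fin_fun] at h1
      omega
    omega
  · have := hT1 (hor.resolve_right hS)
    omega

end Fermat.Agent.LocalRingP
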